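import Mathlib

set_option autoImplicit false

namespace Fermat.Agent.S51

section Field

variable {F : Type*} [Field F]

/-- Tate normal form parametrisation of the `b`-invariants of a curve with a point of order `5`,
in terms of the `x`-coordinates `x1 = x(P)`, `x2 = x(2P)`. -/
lemma tate_param (b2 b4 b6 b8 x1 x2 : F) (hrel : 4 * b8 = b2 * b6 - b4 ^ 2)
    (R1 : x2 * (4 * x1 ^ 3 + b2 * x1 ^ 2 + 2 * b4 * x1 + b6) =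
      x1 ^ 4 - b4 * x1 ^ 2 - 2 * b6 * x1 - b8)
    (R2 : x1 * (4 * x2 ^ 3 + b2 * x2 ^ 2 + 2 * b4 * x2 + b6) =
      x2 ^ 4 - b4 * x2 ^ 2 - 2 * b6 * x2 - b8)
    (hne : x1 ≠ x2) :
    ∃ l b : F, l ≠ 0 ∧ b ≠ 0 ∧ x2 = x1 + l * b ∧
      b2 = l * (b ^ 2 - 6 * b + 1) - 12 * x1 ∧
      b4 = l ^ 2 * (b ^ 2 - b) - x1 * b2 - 6 * x1 ^ 2 ∧
      b6 = l ^ 3 * b ^ 2 - 2 * x1 * b4 - x1 ^ 2 * b2 - 4 * x1 ^ 3 ∧
      b8 = -l ^ 4 * b ^ 3 - 3 * x1 * b6 - 3 * x1 ^ 2 * b4 - x1 ^ 3 * b2 - 3 * x1 ^ 4 := by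
  set d := x2 - x1 with hd
  have hd0 : d ≠ 0 := sub_ne_zero.mpr (Ne.symm hne)
  set B2 := b2 + 12 * x1 with hB2
  set B4 := b4 + x1 * b2 + 6 * x1 ^ 2 with hB4
  set B6 := b6 + 2 * x1 * b4 + x1 ^ 2 * b2 + 4 * x1 ^ 3 with hB6
  set B8 := b8 + 3 * x1 * b6 + 3 * x1 ^ 2 * b4 + x1 ^ 3 * b2 + 3 * x1 ^ 4 with hB8
  have h6 : B6 = d ^ 3 - B4 * d := by
    apply mul_left_cancel₀ hd0
    simp only [hd, hB4, hB6]
    linear_combination R2 - R1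
  have h8 : B8 = -d * B6 := by
    simp only [hd, hB8, hB6]
    linear_combination R1
  have hrel' : 4 * B8 = B2 * B6 - B4 ^ 2 := by
    simp only [hB2, hB4, hB6, hB8]
    linear_combination hrel
  -- `d ^ 2 - B4 ≠ 0`
  have hk : d ^ 2 - B4 ≠ 0 := by
    intro hk
    have hB4' : B4 = d ^ 2 := by linear_combination -hk
    rw [h8, h6, hB4'] at hrel'
    have : d ^ 4 = 0 := by linear_combination hrel'
    exact hd0 (pow_eq_zero_iff (by norm_num) |>.mp this)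
  -- `l = (d ^ 2 - B4) / d`, `b = d ^ 2 / (d ^ 2 - B4)`
  refine ⟨(d ^ 2 - B4) / d, d ^ 2 / (d ^ 2 - B4), div_ne_zero hk hd0,
    div_ne_zero (pow_ne_zero 2 hd0) hk, ?_, ?_, ?_, ?_, ?_⟩
  · have : (d ^ 2 - B4) / d * (d ^ 2 / (d ^ 2 - B4)) = d := by field_simp
    rw [this, hd]; ring
  · have key : B2 * (d ^ 2 - B4) * d = B4 ^ 2 + 4 * B4 * d ^ 2 - 4 * d ^ 4 := by
      rw [h8, h6] at hrel'
      linear_combination -hrel'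
    have : B2 = (d ^ 2 - B4) / d * ((d ^ 2 / (d ^ 2 - B4)) ^ 2 - 6 * (d ^ 2 / (d ^ 2 - B4)) + 1) := by
      field_simp
      linear_combination key
    rw [← this, hB2]; ring
  · have : B4 = ((d ^ 2 - B4) / d) ^ 2 * ((d ^ 2 / (d ^ 2 - B4)) ^ 2 - d ^ 2 / (d ^ 2 - B4)) := by
      field_simp
      ring
    rw [← this, hB4]; ring
  · have : B6 = ((d ^ 2 - B4) / d) ^ 3 * (d ^ 2 / (d ^ 2 - B4)) ^ 2 := by
      rw [h6]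
      field_simp
    rw [← this, hB6]; ring
  · have : B8 = -((d ^ 2 - B4) / d) ^ 4 * (d ^ 2 / (d ^ 2 - B4)) ^ 3 := by
      rw [h8, h6]
      field_simp
    rw [← this, hB8]; ring

/-- The three relations cutting out `X₀(15)`. -/
lemma x0_15_relations (b2 b4 b6 b8 x1 x2 x3 e1 e2 : F) (hrel : 4 * b8 = b2 * b6 - b4 ^ 2)
    (R1 : x2 * (4 * x1 ^ 3 + b2 * x1 ^ 2 + 2 * b4 * x1 + b6) =
      x1 ^ 4 - b4 * x1 ^ 2 - 2 * b6 * x1 - b8)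
    (R2 : x1 * (4 * x2 ^ 3 + b2 * x2 ^ 2 + 2 * b4 * x2 + b6) =
      x2 ^ 4 - b4 * x2 ^ 2 - 2 * b6 * x2 - b8)
    (hne : x1 ≠ x2)
    (R3 : 3 * x3 ^ 4 + b2 * x3 ^ 3 + 3 * b4 * x3 ^ 2 + 3 * b6 * x3 + b8 = 0)
    (he1 : e1 = x1 + x2) (he2 : e2 = x1 * x2)
    (mu w v : F)
    (hmu : mu = -(x3 ^ 2 - e1 * x3 + e2) / (e1 ^ 2 - 4 * e2))
    (hw : w = (2 * b4 + b2 * e1 + 6 * (e1 ^ 2 - 2 * e2)) / (e1 ^ 2 - 4 * e2) - 2)
    (hv : v = (2 * x3 - e1) * (b2 + 6 * e1) / (e1 ^ 2 - 4 * e2)) :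
    e1 ^ 2 - 4 * e2 ≠ 0 ∧
    (1 - mu) * v + (1 - 3 * mu) * w + 6 * mu ^ 2 = 0 ∧
    v ^ 2 = (1 - 4 * mu) * (w ^ 2 + 4) ∧
    (b2 ^ 2 - 24 * b4) ^ 3 * (w - 11) =
      (-b2 ^ 2 * b8 - 8 * b4 ^ 3 - 27 * b6 ^ 2 + 9 * b2 * b4 * b6) *
        ((w - 11) ^ 2 + 10 * (w - 11) + 5) ^ 3 := by
  obtain ⟨l, b, hl, hb, h2, hb2, hb4, hb6, hb8⟩ := tate_param b2 b4 b6 b8 x1 x2 hrel R1 R2 hne
  have hD : e1 ^ 2 - 4 * e2 = (l * b) ^ 2 := by rw [he1, he2, h2]; ring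
  have hD0 : e1 ^ 2 - 4 * e2 ≠ 0 := by rw [hD]; exact pow_ne_zero 2 (mul_ne_zero hl hb)
  -- the shifted coordinate of the 3-torsion point
  obtain ⟨z, hz⟩ : ∃ z, x3 = x1 + z := ⟨x3 - x1, by ring⟩
  have hw' : w = b - 1 / b := by
    rw [hw, hD, he1, he2, h2, hb4, hb2]
    field_simp
    ring
  have hmu' : mu = -(z * (z - l * b)) / (l * b) ^ 2 := by
    rw [hmu, hD, he1, he2, h2, hz]
    congr 1
    ring
  have hv' : v = (2 * z - l * b) * (b ^ 2 + 1) / (l * b ^ 2) := by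
    rw [hv, hD, he1, h2, hz, hb2]
    field_simp
    ring
  have R3' : 3 * z ^ 4 + l * (b ^ 2 - 6 * b + 1) * z ^ 3 + 3 * (l ^ 2 * (b ^ 2 - b)) * z ^ 2
      + 3 * (l ^ 3 * b ^ 2) * z - l ^ 4 * b ^ 3 = 0 := by
    rw [hb8, hb6, hb4, hb2, hz] at R3
    linear_combination R3
  refine ⟨hD0, ?_, ?_, ?_⟩
  · rw [hw', hmu', hv']
    field_simp
    linear_combination 2 * R3'
  · rw [hw', hmu', hv']
    field_simp
    ring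
  · rw [hw', hb8, hb6, hb4, hb2]
    field_simp
    ring

end Field

end Fermat.Agent.S51
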