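import Fermat.Agent.S51.Descent

set_option autoImplicit false

namespace Fermat.Agent.S51

lemma five_dvd_of_j (c4 D m n : ℤ) (hm : ¬ (5 : ℤ) ∣ m) (hn : ¬ (5 : ℤ) ∣ n)
    (h : c4 ^ 3 * m = 5 * n * D ∨ c4 ^ 3 * m = 25 * n * D) : (5 : ℤ) ∣ c4 ∧ (5 : ℤ) ∣ D := by
  have p5 : Prime (5 : ℤ) := by norm_num
  have h1 : (5 : ℤ) ∣ c4 := by
    have : (5 : ℤ) ∣ c4 ^ 3 * m := by
      rcases h with h | h
      · exact ⟨n * D, by rw [h]; ring⟩
      · exact ⟨5 * n * D, by rw [h]; ring⟩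
    rcases p5.dvd_or_dvd this with h' | h'
    · exact p5.dvd_of_dvd_pow h'
    · exact absurd h' hm
  refine ⟨h1, ?_⟩
  obtain ⟨k, rfl⟩ := h1
  rcases h with h | h
  · have : (5 : ℤ) ∣ n * D := ⟨5 * k ^ 3 * m, by linarith⟩
    rcases p5.dvd_or_dvd this with h' | h'
    · exact absurd h' hn
    · exact h'
  · have : (5 : ℤ) ∣ n * D := ⟨k ^ 3 * m, by linarith⟩
    rcases p5.dvd_or_dvd this with h' | h'
    · exact absurd h' hn
    · exact h'

theorem endgame (c4 D : ℤ) (hD : D ≠ 0) (hss : (5 : ℤ) ∣ D → ¬ (5 : ℤ) ∣ c4) (mu w v : ℚ)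
    (hmu0 : mu ≠ 0)
    (B1 : (1 - mu) * v + (1 - 3 * mu) * w + 6 * mu ^ 2 = 0)
    (B2 : v ^ 2 = (1 - 4 * mu) * (w ^ 2 + 4))
    (B3 : (c4 : ℚ) ^ 3 * (w - 11) = (D : ℚ) * ((w - 11) ^ 2 + 10 * (w - 11) + 5) ^ 3) : False := by
  have hmu1 : 1 - mu ≠ 0 := by
    intro h
    have hmu : mu = 1 := by linarith
    subst hmu
    have hw : w = 3 := by linarith
    subst hw
    nlinarith [sq_nonneg v]
  have hquad : 4 * mu ^ 3 * w ^ 2 + 12 * mu ^ 2 * (1 - 3 * mu) * w + 36 * mu ^ 4
      - 4 * (1 - 4 * mu) * (1 - mu) ^ 2 = 0 := by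
    have hv : (1 - mu) * v = -((1 - 3 * mu) * w + 6 * mu ^ 2) := by linarith
    have : ((1 - mu) * v) ^ 2 = (1 - mu) ^ 2 * ((1 - 4 * mu) * (w ^ 2 + 4)) := by
      rw [mul_pow, B2]
    rw [hv] at this
    linear_combination this
  have hpt : (36 * ((2 * mu ^ 2 * w + 3 * mu * (1 - 3 * mu)) / (1 - mu))) ^ 2 =
      (-36 * mu) * (-36 * mu + 9) * (-36 * mu - 16) := by
    have hN : (2 * mu ^ 2 * w + 3 * mu * (1 - 3 * mu)) ^ 2 =
        mu * (9 * mu + 4) * (1 - 4 * mu) * (1 - mu) ^ 2 := by linear_combination mu * hquad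
    rw [mul_pow, div_pow, hN, mul_div_assoc, div_self (pow_ne_zero 2 hmu1)]
    ring
  have hw11 : w - 11 ≠ 0 := by
    intro h
    rw [h] at B3
    have : (D : ℚ) = 0 := by linarith
    exact hD (by exact_mod_cast this)
  have key : ∀ m n : ℤ, ¬ (5 : ℤ) ∣ m → ¬ (5 : ℤ) ∣ n →
      (c4 ^ 3 * m = 5 * n * D ∨ c4 ^ 3 * m = 25 * n * D) → False := by
    intro m n hm hn h
    obtain ⟨h1, h2⟩ := five_dvd_of_j c4 D m n hm hn h
    exact hss h2 h1
  rcases x0_15_rational_points _ _ hpt with h | h | h | h | h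
  · exact hmu0 (by linarith)
  · have hmu : mu = 1 / 4 := by linarith
    subst hmu
    have hw : (2 * w + 3) ^ 2 = 0 := by linear_combination 64 * hquad
    have hw : w = -3 / 2 := by
      have := pow_eq_zero_iff (two_ne_zero) |>.mp hw
      linarith
    subst hw
    refine key 32 (-24389) (by norm_num) (by norm_num) (Or.inl ?_)
    have : (c4 : ℚ) ^ 3 * 32 = 5 * (-24389) * D := by linear_combination (-64 / 25 : ℚ) * B3
    exact_mod_cast this
  · have hmu : mu = -4 / 9 := by linarith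
    subst hmu
    have hw : (8 * w - 63) ^ 2 = 0 := by linear_combination (-729 / 4 : ℚ) * hquad
    have hw : w = 63 / 8 := by
      have := pow_eq_zero_iff (two_ne_zero) |>.mp hw
      linarith
    subst hw
    refine key 32768 9393931 (by norm_num) (by norm_num) (Or.inl ?_)
    have : (c4 : ℚ) ^ 3 * 32768 = 5 * 9393931 * D := by
      linear_combination (-262144 / 25 : ℚ) * B3
    exact_mod_cast this
  · have hmu : mu = -1 := by linarith
    subst hmu
    have hw : (w - 1) * (w - 11) = 0 := by linear_combination (-1 / 4 : ℚ) * hquad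
    have hw : w = 1 := by
      rcases mul_eq_zero.mp hw with h | h
      · linarith
      · exact absurd h hw11
    subst hw
    refine key 2 (-1) (by norm_num) (by norm_num) (Or.inr ?_)
    have : (c4 : ℚ) ^ 3 * 2 = 25 * (-1) * D := by linear_combination (-1 / 5 : ℚ) * B3
    exact_mod_cast this
  · have hmu : mu = 1 / 9 := by linarith
    subst hmu
    have hw : (w + 29) * (w - 11) = 0 := by linear_combination (729 / 4 : ℚ) * hquad
    have hw : w = -29 := by
      rcases mul_eq_zero.mp hw with h | h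
      · linarith
      · exact absurd h hw11
    subst hw
    refine key 8 (-13997521) (by norm_num) (by norm_num) (Or.inr ?_)
    have : (c4 : ℚ) ^ 3 * 8 = 25 * (-13997521) * D := by linear_combination (-1 / 5 : ℚ) * B3
    exact_mod_cast this

end Fermat.Agent.S51
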