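import Fermat.Agent.S51.Galois
import Fermat.Agent.S51.Algebra
import Fermat.Agent.S51.Endgame
import Fermat.Prelude.Def_FLTPrelim_Modularity

set_option autoImplicit false

namespace Fermat.Agent.S51

open WeierstrassCurve WeierstrassCurve.Affine WeierstrassCurve.Affine.Point Polynomial

section Main

variable {K : Type*} [Field K] [DecidableEq K] [Algebra ℚ K] [IsAlgClosed K] [IsGalois ℚ K]

theorem main_generic (W : WeierstrassCurve ℤ) (hΔ : W.Δ ≠ 0) (hW : W.IsSemistableModel) :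
    GaloisRepIsIrreducible (K := K) ℚ (W.map (Int.castRingHom ℚ)) 3 ∨
      GaloisRepIsIrreducible (K := K) ℚ (W.map (Int.castRingHom ℚ)) 5 := by
  have : CharZero K := algebraRat.charZero K
  set E : WeierstrassCurve.Affine ℚ := W.map (Int.castRingHom ℚ) with hE
  -- invariants of the base change
  have hb2 : (E⁄K).b₂ = ((W.b₂ : ℚ) : K) := by
    rw [hE, Affine.baseChange, WeierstrassCurve.baseChange, WeierstrassCurve.map_b₂, WeierstrassCurve.map_b₂,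
      eq_ratCast, eq_intCast]
  have hb4 : (E⁄K).b₄ = ((W.b₄ : ℚ) : K) := by
    rw [hE, Affine.baseChange, WeierstrassCurve.baseChange, WeierstrassCurve.map_b₄, WeierstrassCurve.map_b₄,
      eq_ratCast, eq_intCast]
  have hb6 : (E⁄K).b₆ = ((W.b₆ : ℚ) : K) := by
    rw [hE, Affine.baseChange, WeierstrassCurve.baseChange, WeierstrassCurve.map_b₆, WeierstrassCurve.map_b₆,
      eq_ratCast, eq_intCast]
  have hb8 : (E⁄K).b₈ = ((W.b₈ : ℚ) : K) := by
    rw [hE, Affine.baseChange, WeierstrassCurve.baseChange, WeierstrassCurve.map_b₈, WeierstrassCurve.map_b₈,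
      eq_ratCast, eq_intCast]
  have hΔK : (E⁄K).Δ ≠ 0 := by
    rw [hE, Affine.baseChange, WeierstrassCurve.baseChange, WeierstrassCurve.map_Δ, WeierstrassCurve.map_Δ,
      eq_ratCast, eq_intCast]
    exact_mod_cast hΔ
  by_contra hcon
  rw [not_or] at hcon
  obtain ⟨h3, h5⟩ := hcon
  -- a stable line in the 3-torsion
  obtain ⟨N3, hst3, hN3b, hN3t⟩ : ∃ N : Submodule (ZMod 3) (Submodule.torsionBy ℤ (E⁄K).Point (3 : ℕ)),
      IsGaloisStable ℚ N ∧ N ≠ ⊥ ∧ N ≠ ⊤ := by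
    by_contra hno
    apply h3
    refine ⟨?_, ?_⟩
    · obtain ⟨P, hP, hP3⟩ := exists_three_torsion hΔK
      exact ⟨⟨⟨P, (mem_torsionBy_iff' 3 P).mpr hP3⟩, 0, fun h => hP (congrArg Subtype.val h)⟩⟩
    · intro N hN
      by_contra hN'
      rw [not_or] at hN'
      exact hno ⟨N, hN, hN'.1, hN'.2⟩
  obtain ⟨N5, hst5, hN5b, hN5t⟩ : ∃ N : Submodule (ZMod 5) (Submodule.torsionBy ℤ (E⁄K).Point (5 : ℕ)),
      IsGaloisStable ℚ N ∧ N ≠ ⊥ ∧ N ≠ ⊤ := by
    by_contra hno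
    apply h5
    refine ⟨?_, ?_⟩
    · obtain ⟨P, hP, hP5⟩ := exists_five_torsion hΔK
      exact ⟨⟨⟨P, (mem_torsionBy_iff' 5 P).mpr hP5⟩, 0, fun h => hP (congrArg Subtype.val h)⟩⟩
    · intro N hN
      by_contra hN'
      rw [not_or] at hN'
      exact hno ⟨N, hN, hN'.1, hN'.2⟩
  obtain ⟨P3, q3, hP3, h3P3, hq3⟩ := stable_three N3 hst3 hN3b hN3t
  obtain ⟨P5, e1, e2, hP5, h5P5, he1, he2⟩ := stable_five N5 hst5 hN5b hN5t
  obtain ⟨hne, h2P5, R1, R2⟩ := five_torsion_relations hP5 h5P5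
  have R3 := psi3_of_three_nsmul hP3 h3P3
  set x1 := xOf (E⁄K) P5 with hx1
  set x2 := xOf (E⁄K) (2 • P5) with hx2
  rw [hq3] at R3
  simp only [psi2sq, phi2, hb2, hb4, hb6, hb8] at R1 R2
  simp only [psi3, hb2, hb4, hb6, hb8] at R3
  have hrel : 4 * ((W.b₈ : ℚ) : K) = ((W.b₂ : ℚ) : K) * ((W.b₆ : ℚ) : K) - ((W.b₄ : ℚ) : K) ^ 2 := by
    have := W.b_relation
    exact_mod_cast congrArg (fun z : ℤ => ((z : ℚ) : K)) this
  -- the rational invariants
  set mu : ℚ := -(q3 ^ 2 - e1 * q3 + e2) / (e1 ^ 2 - 4 * e2) with hmu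
  set w : ℚ := (2 * (W.b₄ : ℚ) + (W.b₂ : ℚ) * e1 + 6 * (e1 ^ 2 - 2 * e2)) / (e1 ^ 2 - 4 * e2) - 2
    with hw
  set v : ℚ := (2 * q3 - e1) * ((W.b₂ : ℚ) + 6 * e1) / (e1 ^ 2 - 4 * e2) with hv
  obtain ⟨hD0, B1, B2, B3⟩ := x0_15_relations _ _ _ _ x1 x2 (q3 : K) (e1 : K) (e2 : K) hrel R1 R2 hne R3
    he1 he2 (mu : K) (w : K) (v : K) (by rw [hmu]; push_cast; ring) (by rw [hw]; push_cast; ring)
    (by rw [hv]; push_cast; ring)
  have hD0' : e1 ^ 2 - 4 * e2 ≠ 0 := by exact_mod_cast hD0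
  -- `mu ≠ 0`
  have hmu0 : mu ≠ 0 := by
    intro h0
    have hnum : q3 ^ 2 - e1 * q3 + e2 = 0 := by
      rw [hmu, div_eq_zero_iff] at h0
      rcases h0 with h0 | h0
      · linarith
      · exact absurd h0 hD0'
    have hnumK : ((q3 : K) - x1) * ((q3 : K) - x2) = 0 := by
      have : ((q3 : K)) ^ 2 - (e1 : K) * (q3 : K) + (e2 : K) = 0 := by exact_mod_cast hnum
      rw [he1, he2] at this
      linear_combination this
    have h15 : ∀ Q : (E⁄K).Point, 5 • Q = 0 → Q ≠ 0 → xOf (E⁄K) P3 ≠ xOf (E⁄K) Q := by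
      intro Q h5Q hQ hx
      have h3Q : 3 • Q = 0 := by
        rcases (xOf_eq_iff hP3 hQ).mp hx with h | h
        · rw [← h]; exact h3P3
        · have : Q = -P3 := by rw [h, neg_neg]
          rw [this, smul_neg, h3P3, _root_.neg_zero]
      apply hQ
      have : Q = 2 • (3 • Q) - 5 • Q := by
        rw [smul_smul]; simp only [Nat.reduceMul]
        rw [eq_sub_iff_add_eq, ← succ_nsmul']
      rw [this, h3Q, h5Q]; simp
    rcases mul_eq_zero.mp hnumK with h | h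
    · exact h15 P5 h5P5 hP5 (by rw [hq3, ← hx1]; linear_combination h)
    · refine h15 (2 • P5) ?_ h2P5 (by rw [hq3, ← hx2]; linear_combination h)
      rw [smul_comm, h5P5, smul_zero]
  refine endgame W.c₄ W.Δ hΔ ?_ mu w v hmu0 (by exact_mod_cast B1) (by exact_mod_cast B2) ?_
  · have := hW 5 (by norm_num)
    exact_mod_cast this
  · have hc4 : ((W.c₄ : ℤ) : ℚ) = (W.b₂ : ℚ) ^ 2 - 24 * (W.b₄ : ℚ) := by
      rw [WeierstrassCurve.c₄]; push_cast; ring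
    have hD : ((W.Δ : ℤ) : ℚ) = -(W.b₂ : ℚ) ^ 2 * (W.b₈ : ℚ) - 8 * (W.b₄ : ℚ) ^ 3
        - 27 * (W.b₆ : ℚ) ^ 2 + 9 * (W.b₂ : ℚ) * (W.b₄ : ℚ) * (W.b₆ : ℚ) := by
      rw [WeierstrassCurve.Δ]; push_cast; ring
    rw [hc4, hD]
    exact_mod_cast B3

end Main

end Fermat.Agent.S51
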