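import Mathlib

set_option autoImplicit false

namespace Fermat.Agent.S51

/-- If `A * D = N^2` then `A = ± g k^2` with `g = gcd A D`. -/
lemma eq_gcd_mul_sq {A D N : ℤ} (hA : A ≠ 0) (h : A * D = N ^ 2) :
    ∃ k : ℤ, A = (Int.gcd A D : ℤ) * k ^ 2 ∨ A = -((Int.gcd A D : ℤ) * k ^ 2) := by
  have hpos : 0 < Int.gcd A D := Int.gcd_pos_of_ne_zero_left _ hA
  obtain ⟨A', D', hcop, hA', hD'⟩ := Int.exists_gcd_one hpos
  generalize (Int.gcd A D : ℤ) = g at hA' hD' ⊢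
  have hg0 : g ≠ 0 := by
    rintro rfl
    apply hA
    rw [hA', mul_zero]
  have hgN : g ∣ N := by
    rw [← Int.pow_dvd_pow_iff (n := 2) two_ne_zero, ← h, hA', hD']
    exact ⟨A' * D', by ring⟩
  obtain ⟨N', hN'⟩ := hgN
  have h2 : A' * D' = N' ^ 2 := by
    have h3 : g ^ 2 * (A' * D') = g ^ 2 * N' ^ 2 := by
      calc g ^ 2 * (A' * D') = (A' * g) * (D' * g) := by ring
        _ = N ^ 2 := by rw [← hA', ← hD', h]
        _ = g ^ 2 * N' ^ 2 := by rw [hN']; ring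
    exact mul_left_cancel₀ (pow_ne_zero 2 hg0) h3
  obtain ⟨k, hk | hk⟩ := Int.sq_of_gcd_eq_one hcop h2
  · exact ⟨k, Or.inl (by rw [hA', hk]; ring)⟩
  · exact ⟨k, Or.inr (by rw [hA', hk]; ring)⟩

lemma odd_sq_mod_eight {k : ℤ} (hk : Odd k) : k ^ 2 % 8 = 1 := by
  obtain ⟨m, rfl⟩ := hk
  have h : (2 * m + 1) ^ 2 = 8 * (m * (m + 1) / 2) + 1 := by
    have h2 : 2 ∣ m * (m + 1) := Int.even_mul_succ_self m |>.two_dvd
    obtain ⟨c, hc⟩ := h2
    rw [hc, Int.mul_ediv_cancel_left _ two_ne_zero]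
    linear_combination 4 * hc
  rw [h]
  omega

lemma dvd_nine_cases {g : ℕ} (h : (g : ℤ) ∣ 9) : g = 1 ∨ g = 3 ∨ g = 9 := by
  have h' : g ∣ 9 := by exact_mod_cast h
  have hle : g ≤ 9 := Nat.le_of_dvd (by norm_num) h'
  interval_cases g <;> simp_all

lemma dvd_twentyfive_cases {g : ℕ} (h : (g : ℤ) ∣ 25) : g = 1 ∨ g = 5 ∨ g = 25 := by
  have h' : g ∣ 25 := by exact_mod_cast h
  have hle : g ≤ 25 := Nat.le_of_dvd (by norm_num) h'
  interval_cases g <;> simp_all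

lemma odd_of_mul_sq_odd {g k A : ℤ} (hA : Odd A) (h : A = g * k ^ 2 ∨ A = -(g * k ^ 2)) : Odd k := by
  rw [← Int.not_even_iff_odd] at hA ⊢
  intro hk
  apply hA
  rcases h with h | h <;> rw [h]
  · exact (hk.pow_of_ne_zero two_ne_zero).mul_left g
  · exact ((hk.pow_of_ne_zero two_ne_zero).mul_left g).neg

/-- Core 2-descent lemma. -/
lemma core {M E N : ℤ} (hE2 : 2 ∣ E) (hcop : IsCoprime M E)
    (h : M * (M + 9 * E ^ 2) * (M - 16 * E ^ 2) = N ^ 2) :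
    ∃ r p q : ℤ, M = r ^ 2 ∧ M + 9 * E ^ 2 = p ^ 2 ∧ M - 16 * E ^ 2 = q ^ 2 ∧ 4 ∣ E := by
  obtain ⟨E₁, hE₁⟩ := hE2
  have hModd : Odd M := by
    rw [← Int.not_even_iff_odd]
    intro hev
    obtain ⟨c, hc⟩ := hev.two_dvd
    have h2 : IsCoprime (2 : ℤ) 2 := by
      have := hcop
      rw [hc, hE₁] at this
      exact (IsCoprime.of_mul_left_left this).of_mul_right_left
    have : IsUnit (2 : ℤ) := isCoprime_self.mp h2
    rw [Int.isUnit_iff] at this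
    omega
  obtain ⟨B, hB⟩ : ∃ B, B = M + 9 * E ^ 2 := ⟨_, rfl⟩
  obtain ⟨C, hC⟩ : ∃ C, C = M - 16 * E ^ 2 := ⟨_, rfl⟩
  rw [← hB, ← hC] at h ⊢
  have hE2 : E ^ 2 = 4 * E₁ ^ 2 := by rw [hE₁]; ring
  have hBodd : Odd B := by
    rw [hB, hE2, Int.odd_iff] at *
    omega
  have hCodd : Odd C := by
    rw [hC, hE2, Int.odd_iff] at *
    omega
  have hM0 : M ≠ 0 := by rintro rfl; simp at hModd
  have hB0 : B ≠ 0 := by rintro rfl; simp at hBodd
  have hC0 : C ≠ 0 := by rintro rfl; simp at hCodd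
  have hcopE2 : IsCoprime M (E ^ 2) := hcop.pow_right
  -- coprimality of A and C
  have hMC : IsCoprime M C := by
    have h16 : IsCoprime M 16 := by
      have : IsCoprime M 2 := by
        rw [hE₁] at hcop
        exact hcop.of_mul_right_left
      have := this.pow_right (n := 4)
      norm_num at this
      exact this
    have h1 : IsCoprime M (-(16 * E ^ 2)) := (h16.mul_right hcopE2).neg_right
    have h2 := h1.add_mul_left_right 1
    have h3 : -(16 * E ^ 2) + M * 1 = C := by rw [hC]; ring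
    rwa [h3] at h2
  have hCE : IsCoprime C (E ^ 2) := by
    have h2 := hcopE2.add_mul_right_left (-16)
    have h3 : M + -16 * E ^ 2 = C := by rw [hC]; ring
    rwa [h3] at h2
  -- g ∣ 9
  have hg : ((Int.gcd M (B * C) : ℕ) : ℤ) ∣ 9 := by
    have h1 : ((Int.gcd M (B * C) : ℕ) : ℤ) ∣ M := Int.gcd_dvd_left ..
    have h2 : ((Int.gcd M (B * C) : ℕ) : ℤ) ∣ B * C := Int.gcd_dvd_right ..
    have h3 : ((Int.gcd M (B * C) : ℕ) : ℤ) ∣ B := (hMC.of_isCoprime_of_dvd_left h1).dvd_of_dvd_mul_right h2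
    have h4 : ((Int.gcd M (B * C) : ℕ) : ℤ) ∣ 9 * E ^ 2 := by
      have h5 := dvd_sub h3 h1
      have h6 : B - M = 9 * E ^ 2 := by rw [hB]; ring
      rwa [h6] at h5
    exact (hcopE2.of_isCoprime_of_dvd_left h1).dvd_of_dvd_mul_right h4
  have hg' : ((Int.gcd C (M * B) : ℕ) : ℤ) ∣ 25 := by
    have h1 : ((Int.gcd C (M * B) : ℕ) : ℤ) ∣ C := Int.gcd_dvd_left ..
    have h2 : ((Int.gcd C (M * B) : ℕ) : ℤ) ∣ M * B := Int.gcd_dvd_right ..
    have h3 : ((Int.gcd C (M * B) : ℕ) : ℤ) ∣ B := (hMC.symm.of_isCoprime_of_dvd_left h1).dvd_of_dvd_mul_left h2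
    have h4 : ((Int.gcd C (M * B) : ℕ) : ℤ) ∣ 25 * E ^ 2 := by
      have h5 := dvd_sub h3 h1
      have h6 : B - C = 25 * E ^ 2 := by rw [hB, hC]; ring
      rwa [h6] at h5
    exact (hCE.of_isCoprime_of_dvd_left h1).dvd_of_dvd_mul_right h4
  obtain ⟨k, hk⟩ := eq_gcd_mul_sq (A := M) (D := B * C) (N := N) hM0 (by rw [← h]; ring)
  obtain ⟨m, hm⟩ := eq_gcd_mul_sq (A := C) (D := M * B) (N := N) hC0 (by rw [← h]; ring)
  have hkodd : Odd k := odd_of_mul_sq_odd hModd hk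
  have hmodd : Odd m := odd_of_mul_sq_odd hCodd hm
  have hk8 := odd_sq_mod_eight hkodd
  have hm8 := odd_sq_mod_eight hmodd
  -- sign
  have hN0 : N ≠ 0 := by
    rintro rfl
    have : M * B * C ≠ 0 := mul_ne_zero (mul_ne_zero hM0 hB0) hC0
    apply this
    rw [h]; ring
  have hNpos : 0 < N ^ 2 := by positivity
  have hE1sq : 0 ≤ E₁ ^ 2 := by positivity
  have hsign : (0 < M ∧ 0 < C) ∨ (M < 0 ∧ C < 0) := by
    rcases lt_or_gt_of_ne hM0 with hM | hM <;> rcases lt_or_gt_of_ne hC0 with hC' | hC'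
    · exact Or.inr ⟨hM, hC'⟩
    · exfalso; rw [hE2] at hC; omega
    · exfalso
      have hBpos : 0 < B := by rw [hE2] at hB; omega
      have : M * B * C < 0 := mul_neg_of_pos_of_neg (mul_pos hM hBpos) hC'
      omega
    · exact Or.inl ⟨hM, hC'⟩
  have key : (∃ r q, M = r ^ 2 ∧ C = q ^ 2) ∨ (∃ r q, M = -r ^ 2 ∧ C = -q ^ 2) := by
    rw [hE2] at hC
    have hKnn : 0 ≤ k ^ 2 := sq_nonneg k
    have hMmnn : 0 ≤ m ^ 2 := sq_nonneg m
    generalize hK : k ^ 2 = K at *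
    generalize hMm : m ^ 2 = Mm at *
    generalize E₁ ^ 2 = F at *
    rcases dvd_nine_cases hg with h9 | h9 | h9 <;> rcases dvd_twentyfive_cases hg' with h25 | h25 | h25 <;>
      rw [h9] at hk <;> rw [h25] at hm <;> push_cast at hk hm <;>
      rcases hk with hk | hk <;> rcases hm with hm | hm <;> first
        | (exfalso; omega)
        | (left; exact ⟨k, m, by omega, by omega⟩)
        | (left; exact ⟨3 * k, m, by rw [mul_pow, hK]; omega, by omega⟩)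
        | (left; exact ⟨k, 5 * m, by omega, by rw [mul_pow, hMm]; omega⟩)
        | (left; exact ⟨3 * k, 5 * m, by rw [mul_pow, hK]; omega, by rw [mul_pow, hMm]; omega⟩)
        | (right; exact ⟨k, m, by omega, by omega⟩)
        | (right; exact ⟨3 * k, m, by rw [mul_pow, hK]; omega, by omega⟩)
        | (right; exact ⟨k, 5 * m, by omega, by rw [mul_pow, hMm]; omega⟩)
        | (right; exact ⟨3 * k, 5 * m, by rw [mul_pow, hK]; omega, by rw [mul_pow, hMm]; omega⟩)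
  have hBsq : ∀ r q : ℤ, M * C = (r * q) ^ 2 → ∃ p, B = p ^ 2 := by
    intro r q hrq
    have hrq0 : r * q ≠ 0 := by
      intro h0
      rw [h0] at hrq
      exact mul_ne_zero hM0 hC0 (by rw [hrq]; ring)
    have hdvd : r * q ∣ N := by
      rw [← Int.pow_dvd_pow_iff (n := 2) two_ne_zero, ← h, ← hrq]
      exact ⟨B, by ring⟩
    obtain ⟨p, hp⟩ := hdvd
    refine ⟨p, ?_⟩
    have h3 : (r * q) ^ 2 * B = (r * q) ^ 2 * p ^ 2 := by
      calc (r * q) ^ 2 * B = M * B * C := by rw [← hrq]; ring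
        _ = (r * q * p) ^ 2 := by rw [h, hp]
        _ = (r * q) ^ 2 * p ^ 2 := by ring
    exact mul_left_cancel₀ (pow_ne_zero 2 hrq0) h3
  have hoddsq : ∀ a b : ℤ, Odd a → (a = b ^ 2 ∨ a = -b ^ 2) → Odd b := by
    intro a b ha hab
    apply odd_of_mul_sq_odd (g := 1) ha
    rcases hab with hab | hab
    · left; rw [hab]; ring
    · right; rw [hab]; ring
  rcases key with ⟨r, q, hr, hq⟩ | ⟨r, q, hr, hq⟩
  · obtain ⟨p, hp⟩ := hBsq r q (by rw [hr, hq]; ring)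
    refine ⟨r, p, q, hr, hp, hq, ?_⟩
    have hr8 := odd_sq_mod_eight (hoddsq M r hModd (Or.inl hr))
    have hp8 := odd_sq_mod_eight (hoddsq B p hBodd (Or.inl hp))
    have hev : Even E₁ := by
      by_contra hodd
      rw [Int.not_even_iff_odd] at hodd
      have h8 := odd_sq_mod_eight hodd
      rw [hr, hE2, hp] at hB
      omega
    obtain ⟨c, hc⟩ := hev
    exact ⟨c, by rw [hE₁, hc]; ring⟩
  · exfalso
    obtain ⟨p, hp⟩ := hBsq r q (by rw [hr, hq]; ring)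
    have hr8 := odd_sq_mod_eight (hoddsq M r hModd (Or.inr hr))
    have hp8 := odd_sq_mod_eight (hoddsq B p hBodd (Or.inl hp))
    rw [hr, hE2, hp] at hB
    omega


/-- the curve predicate -/
def OnCurve (x : ℚ) : Prop := IsSquare (x * (x + 9) * (x - 16))

lemma rat_to_int {x : ℚ} (hx : OnCurve x) :
    ∃ E N : ℤ, (x.den : ℤ) = E ^ 2 ∧
      x.num * (x.num + 9 * E ^ 2) * (x.num - 16 * E ^ 2) = N ^ 2 := by
  obtain ⟨y, hy⟩ := hx
  obtain ⟨M, hM⟩ : ∃ M, M = x.num := ⟨_, rfl⟩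
  obtain ⟨n, hn⟩ : ∃ n : ℤ, n = (x.den : ℤ) := ⟨_, rfl⟩
  have hnpos : 0 < n := by rw [hn]; exact_mod_cast x.den_pos
  have hcop : IsCoprime M n := by rw [hM, hn]; exact x.isCoprime_num_den
  have hxe : x = (M : ℚ) / (n : ℚ) := by rw [hM, hn]; exact_mod_cast (x.num_div_den).symm
  have hnq : (n : ℚ) ≠ 0 := by exact_mod_cast hnpos.ne'
  rw [← hM, ← hn]
  have hZ : IsSquare (((n * (M * (M + 9 * n) * (M - 16 * n)) : ℤ)) : ℚ) := by
    refine ⟨y * n ^ 2, ?_⟩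
    have : (y * n ^ 2) * (y * n ^ 2) = (y * y) * n ^ 4 := by ring
    rw [this, ← hy, hxe]
    push_cast
    field_simp
  rw [Rat.isSquare_intCast_iff] at hZ
  obtain ⟨K, hK⟩ := hZ
  have hK' : n * (M * (M + 9 * n) * (M - 16 * n)) = K ^ 2 := by rw [hK]; ring
  have hcop2 : IsCoprime n (M * (M + 9 * n) * (M - 16 * n)) := by
    refine IsCoprime.mul_right (IsCoprime.mul_right hcop.symm ?_) ?_
    · exact (hcop.add_mul_right_left 9).symm
    · have := (hcop.add_mul_right_left (-16)).symm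
      have h3 : M + -16 * n = M - 16 * n := by ring
      rwa [h3] at this
  obtain ⟨E, hE | hE⟩ := Int.sq_of_isCoprime hcop2 hK'
  · refine ⟨E, ?_⟩
    obtain ⟨N, hN | hN⟩ := Int.sq_of_isCoprime hcop2.symm (by rw [mul_comm]; exact hK')
    · exact ⟨N, hE, by rw [← hE]; exact hN⟩
    · refine ⟨0, hE, ?_⟩
      rw [← hE]
      have h1 : 0 ≤ K ^ 2 := sq_nonneg K
      have h2 : 0 ≤ N ^ 2 := sq_nonneg N
      rw [hN] at hK' ⊢
      have h3 : N ^ 2 = 0 := by nlinarith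
      rw [h3]; ring
  · exfalso
    have : 0 ≤ E ^ 2 := sq_nonneg E
    omega

lemma even_den_of_eq_div {X : ℚ} {a b : ℤ} (hb : b ≠ 0) (hX : X = (a : ℚ) / (b : ℚ)) (ha : Odd a)
    (hb2 : 2 ∣ b) : 2 ∣ X.den := by
  have hbq : (b : ℚ) ≠ 0 := by exact_mod_cast hb
  have hdq : (X.den : ℚ) ≠ 0 := by exact_mod_cast X.den_nz
  have h1 : (X.num : ℚ) / (X.den : ℚ) = (a : ℚ) / (b : ℚ) := by rw [X.num_div_den, hX]
  rw [div_eq_div_iff hdq hbq] at h1
  have h2 : X.num * b = a * (X.den : ℤ) := by exact_mod_cast h1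
  have h3 : (2 : ℤ) ∣ a * (X.den : ℤ) := by rw [← h2]; exact Dvd.dvd.mul_left hb2 _
  have h4 : (2 : ℤ) ∣ (X.den : ℤ) := by
    rcases Int.prime_two.dvd_or_dvd h3 with h | h
    · exfalso
      rw [← Int.not_even_iff_odd] at ha
      exact ha (even_iff_two_dvd.mpr h)
    · exact h
  exact_mod_cast h4

lemma den_dvd_of_eq_div {X : ℚ} {a b : ℤ} (hX : X = (a : ℚ) / (b : ℚ)) : (X.den : ℤ) ∣ b := by
  rw [hX, ← Rat.divInt_eq_div]
  exact Rat.den_dvd a b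


lemma sign_normalize {r p : ℤ} (hr : Odd r) (hp : Odd p) :
    ∃ p' u : ℤ, p' ^ 2 = p ^ 2 ∧ r + p' = 2 * u ∧ Odd u := by
  rw [Int.odd_iff] at hr hp
  by_cases h : (r + p) % 4 = 2
  · refine ⟨p, (r + p) / 2, rfl, by omega, ?_⟩
    rw [Int.odd_iff]; omega
  · refine ⟨-p, (r - p) / 2, by ring, by omega, ?_⟩
    rw [Int.odd_iff]; omega

lemma odd_of_sq_odd {a b : ℤ} (ha : Odd a) (h : a = b ^ 2) : Odd b := by
  apply odd_of_mul_sq_odd (g := 1) ha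
  left; rw [h]; ring

lemma step {x : ℚ} (hx : OnCurve x) (h2 : 2 ∣ x.den) :
    ∃ X : ℚ, OnCurve X ∧ 2 ∣ X.den ∧ X.den < x.den := by
  obtain ⟨E, N, hE, hN⟩ := rat_to_int hx
  have hdpos : (0 : ℤ) < (x.den : ℤ) := by exact_mod_cast x.den_pos
  have hE0 : E ≠ 0 := by
    rintro rfl
    rw [hE] at hdpos
    norm_num at hdpos
  have h2E : (2 : ℤ) ∣ E := by
    have : (2 : ℤ) ∣ E ^ 2 := by rw [← hE]; exact_mod_cast h2
    exact Int.prime_two.dvd_of_dvd_pow this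
  have hcop : IsCoprime x.num E := by
    have := x.isCoprime_num_den
    rw [hE] at this
    exact (IsCoprime.pow_right_iff (by norm_num)).mp this
  obtain ⟨r, p, q, hr, hp, hq, c, hc⟩ := core h2E hcop hN
  have hc0 : c ≠ 0 := by
    rintro rfl
    exact hE0 (by rw [hc]; ring)
  have hE2 : E ^ 2 = 16 * c ^ 2 := by rw [hc]; ring
  have hModd : Odd x.num := by
    rw [← Int.not_even_iff_odd]
    intro hev
    obtain ⟨d, hd⟩ := hev.two_dvd
    obtain ⟨e, he⟩ := h2E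
    have h22 : IsCoprime (2 : ℤ) 2 := by
      have := hcop
      rw [hd, he] at this
      exact (IsCoprime.of_mul_left_left this).of_mul_right_left
    have : IsUnit (2 : ℤ) := isCoprime_self.mp h22
    rw [Int.isUnit_iff] at this
    omega
  have hrodd : Odd r := odd_of_sq_odd hModd hr
  have hpodd : Odd p := by
    apply odd_of_sq_odd _ hp
    rw [hE2, Int.odd_iff] at *
    omega
  have hqodd : Odd q := by
    apply odd_of_sq_odd _ hq
    rw [hE2, Int.odd_iff] at *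
    omega
  obtain ⟨p', u, hp', hu, huodd⟩ := sign_normalize hrodd hpodd
  obtain ⟨q', v, hq', hv, hvodd⟩ := sign_normalize hrodd hqodd
  rw [hr, ← hp'] at hp
  rw [hr, ← hq'] at hq
  -- the new point
  have hEq : (E : ℚ) ≠ 0 := by exact_mod_cast hE0
  have hcq : (c : ℚ) ≠ 0 := by exact_mod_cast hc0
  have hpQ : (r : ℚ) ^ 2 + 9 * (E : ℚ) ^ 2 = (p' : ℚ) ^ 2 := by exact_mod_cast hp
  have hqQ : (r : ℚ) ^ 2 - 16 * (E : ℚ) ^ 2 = (q' : ℚ) ^ 2 := by exact_mod_cast hq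
  obtain ⟨X, hX⟩ : ∃ X : ℚ, X = ((r : ℚ) + p') * (r + q') / (E : ℚ) ^ 2 := ⟨_, rfl⟩
  have hX9 : X + 9 = ((p' : ℚ) + r) * (p' + q') / (E : ℚ) ^ 2 := by
    rw [hX]; field_simp; linear_combination hpQ
  have hX16 : X - 16 = ((q' : ℚ) + r) * (q' + p') / (E : ℚ) ^ 2 := by
    rw [hX]; field_simp; linear_combination hqQ
  have hXab : X = ((u * v : ℤ) : ℚ) / (((2 * c) ^ 2 : ℤ) : ℚ) := by
    have huQ : (r : ℚ) + p' = 2 * u := by exact_mod_cast hu
    have hvQ : (r : ℚ) + q' = 2 * v := by exact_mod_cast hv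
    have hcQ : (E : ℚ) = 4 * c := by exact_mod_cast hc
    rw [hX, huQ, hvQ, hcQ]
    push_cast
    field_simp
    ring
  refine ⟨X, ?_, ?_, ?_⟩
  · refine ⟨((r : ℚ) + p') * (r + q') * (p' + q') / (E : ℚ) ^ 3, ?_⟩
    rw [hX9, hX16, hX]
    field_simp
    ring
  · exact even_den_of_eq_div (pow_ne_zero 2 (mul_ne_zero two_ne_zero hc0)) hXab (huodd.mul hvodd)
      ⟨2 * c ^ 2, by ring⟩
  · have h1 := den_dvd_of_eq_div hXab
    have h2 : (X.den : ℤ) ≤ (2 * c) ^ 2 := Int.le_of_dvd (by positivity) h1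
    have h3 : (X.den : ℤ) < (x.den : ℤ) := by
      rw [hE, hE2]
      have : 0 < c ^ 2 := by positivity
      nlinarith
    exact_mod_cast h3

theorem no_even_den : ∀ (n : ℕ) (x : ℚ), x.den = n → OnCurve x → ¬ 2 ∣ x.den := by
  intro n
  induction n using Nat.strong_induction_on with
  | _ n ih =>
    intro x hxn hx h2
    obtain ⟨X, hX, hX2, hlt⟩ := step hx h2
    exact ih X.den (hxn ▸ hlt) X rfl hX hX2


lemma sq_triple {x : ℚ} (h1 : IsSquare x) (h2 : IsSquare (x + 9)) (h3 : IsSquare (x - 16)) :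
    ∃ r p q e : ℤ, e ≠ 0 ∧ (x.den : ℤ) = e ^ 2 ∧ x = (r : ℚ) ^ 2 / (e : ℚ) ^ 2 ∧
      r ^ 2 + 9 * e ^ 2 = p ^ 2 ∧ r ^ 2 - 16 * e ^ 2 = q ^ 2 := by
  obtain ⟨⟨r, hr⟩, ⟨e, he⟩⟩ := Rat.isSquare_iff.mp h1
  have he0 : e ≠ 0 := by
    rintro rfl
    exact x.den_nz (by rw [he])
  have heq : ((e : ℤ) : ℚ) ≠ 0 := by exact_mod_cast he0
  have hx : x = (r : ℚ) ^ 2 / ((e : ℤ) : ℚ) ^ 2 := by
    conv_lhs => rw [← x.num_div_den, hr, he]
    push_cast
    ring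
  have hsq : ∀ (t : ℤ), IsSquare (x + t) → ∃ p : ℤ, r ^ 2 + t * (e : ℤ) ^ 2 = p ^ 2 := by
    intro t ⟨f, hf⟩
    have : IsSquare (((r ^ 2 + t * (e : ℤ) ^ 2 : ℤ)) : ℚ) := by
      refine ⟨f * (e : ℤ), ?_⟩
      have h4 : f * ((e : ℤ) : ℚ) * (f * ((e : ℤ) : ℚ)) = (f * f) * ((e : ℤ) : ℚ) ^ 2 := by ring
      rw [h4, ← hf, hx]
      push_cast
      field_simp
    rw [Rat.isSquare_intCast_iff] at this
    obtain ⟨p, hp⟩ := this
    exact ⟨p, by rw [hp]; ring⟩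
  obtain ⟨p, hp⟩ := hsq 9 (by exact_mod_cast h2)
  obtain ⟨q, hq⟩ := hsq (-16) (by
    have : x + ((-16 : ℤ) : ℚ) = x - 16 := by push_cast; ring
    rw [this]; exact h3)
  refine ⟨r, p, q, e, by exact_mod_cast he0, by rw [he]; push_cast; ring, hx, hp, ?_⟩
  rw [← hq]; ring

lemma sq_mod_eight (a : ℤ) : a ^ 2 % 8 = 0 ∨ a ^ 2 % 8 = 1 ∨ a ^ 2 % 8 = 4 := by
  have h : a % 8 = 0 ∨ a % 8 = 1 ∨ a % 8 = 2 ∨ a % 8 = 3 ∨ a % 8 = 4 ∨ a % 8 = 5 ∨ a % 8 = 6 ∨ a % 8 = 7 := by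
    omega
  rcases h with h | h | h | h | h | h | h | h <;> simp [pow_two, Int.mul_emod, h]

lemma four_dvd_of_sq_mod_eight {a : ℤ} (h0 : a ^ 2 % 8 = 0) : 4 ∣ a := by
  have h : a % 8 = 0 ∨ a % 8 = 1 ∨ a % 8 = 2 ∨ a % 8 = 3 ∨ a % 8 = 4 ∨ a % 8 = 5 ∨ a % 8 = 6 ∨ a % 8 = 7 := by
    omega
  rcases h with h | h | h | h | h | h | h | h <;> simp [pow_two, Int.mul_emod, h] at h0 <;> omega

/-- If `x, x+9, x-16` are nonzero rational squares we get a contradiction. -/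
lemma no_triple {x : ℚ} (h1 : IsSquare x) (h2 : IsSquare (x + 9)) (h3 : IsSquare (x - 16))
    (h16 : x - 16 ≠ 0) : False := by
  have hcurve : OnCurve x := by
    obtain ⟨a, ha⟩ := h1
    obtain ⟨b, hb⟩ := h2
    obtain ⟨c, hc⟩ := h3
    exact ⟨a * b * c, by rw [hb, hc]; nth_rewrite 1 [ha]; ring⟩
  have hodd := no_even_den _ x rfl hcurve
  obtain ⟨r, p, q, e, he0, hden, hx, hp, hq⟩ := sq_triple h1 h2 h3
  have heodd : Odd e := by
    rw [← Int.not_even_iff_odd]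
    intro hev
    apply hodd
    have : (2 : ℤ) ∣ (x.den : ℤ) := by
      rw [hden]
      exact Dvd.dvd.pow hev.two_dvd two_ne_zero
    exact_mod_cast this
  have he8 := odd_sq_mod_eight heodd
  have hr8 : r ^ 2 % 8 = 0 ∧ p ^ 2 % 8 = 1 := by
    have h5 := sq_mod_eight r
    have h6 := sq_mod_eight p
    omega
  obtain ⟨r₂, hr₂⟩ := four_dvd_of_sq_mod_eight hr8.1
  have hq4 : (4 : ℤ) ∣ q := by
    rw [← Int.pow_dvd_pow_iff (n := 2) two_ne_zero, ← hq, hr₂]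
    exact ⟨r₂ ^ 2 - e ^ 2, by ring⟩
  obtain ⟨q', hq'⟩ := hq4
  have hq2 : q' ^ 2 = r₂ ^ 2 - e ^ 2 := by
    have : 16 * q' ^ 2 = 16 * (r₂ ^ 2 - e ^ 2) := by
      calc 16 * q' ^ 2 = q ^ 2 := by rw [hq']; ring
        _ = r ^ 2 - 16 * e ^ 2 := hq.symm
        _ = 16 * (r₂ ^ 2 - e ^ 2) := by rw [hr₂]; ring
    omega
  have hq8 : q' ^ 2 % 8 = 0 := by
    have h5 := sq_mod_eight q'
    have h6 := sq_mod_eight r₂
    omega
  obtain ⟨q'', hq''⟩ := four_dvd_of_sq_mod_eight hq8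
  have hpodd : Odd (p ^ 2) := by
    rw [Int.odd_iff]; omega
  have heQ : (e : ℚ) ≠ 0 := by exact_mod_cast he0
  have hq0 : q' ≠ 0 := by
    rintro rfl
    apply h16
    have hqQ : (r : ℚ) ^ 2 - 16 * (e : ℚ) ^ 2 = (q : ℚ) ^ 2 := by exact_mod_cast hq
    have hq00 : (q : ℚ) = 0 := by rw [hq']; simp
    rw [hq00] at hqQ
    rw [hx]
    field_simp
    linear_combination hqQ
  have hq0Q : (q' : ℚ) ≠ 0 := by exact_mod_cast hq0
  have hp2 : p ^ 2 = 16 * r₂ ^ 2 + 9 * e ^ 2 := by rw [← hp, hr₂]; ring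
  have hp2Q : (p : ℚ) ^ 2 = 16 * (r₂ : ℚ) ^ 2 + 9 * (e : ℚ) ^ 2 := by exact_mod_cast hp2
  have hq2Q : (q' : ℚ) ^ 2 = (r₂ : ℚ) ^ 2 - (e : ℚ) ^ 2 := by exact_mod_cast hq2
  obtain ⟨X, hX⟩ : ∃ X : ℚ, X = (p : ℚ) ^ 2 / (q' : ℚ) ^ 2 := ⟨_, rfl⟩
  have hX9 : X + 9 = (5 * (r₂ : ℚ)) ^ 2 / (q' : ℚ) ^ 2 := by
    rw [hX]; field_simp; linear_combination hp2Q + 9 * hq2Q
  have hX16 : X - 16 = (5 * (e : ℚ)) ^ 2 / (q' : ℚ) ^ 2 := by
    rw [hX]; field_simp; linear_combination hp2Q - 16 * hq2Q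
  have hXcurve : OnCurve X := by
    refine ⟨(p : ℚ) * (5 * r₂) * (5 * e) / (q' : ℚ) ^ 3, ?_⟩
    rw [hX9, hX16, hX]
    field_simp
  refine no_even_den _ X rfl hXcurve ?_
  refine even_den_of_eq_div (a := p ^ 2) (b := q' ^ 2) (pow_ne_zero 2 hq0) (by rw [hX]; push_cast; ring) hpodd ?_
  rw [hq'']
  exact ⟨8 * q'' ^ 2, by ring⟩

/-- Rational points of `y^2 = x (x + 9) (x - 16)` (a model of `X₀(15)`). -/
theorem x0_15_rational_points (x y : ℚ) (h : y ^ 2 = x * (x + 9) * (x - 16)) :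
    x = 0 ∨ x = -9 ∨ x = 16 ∨ x = 36 ∨ x = -4 := by
  by_contra hcon
  push Not at hcon
  obtain ⟨h0, h9, h16, h36, h4⟩ := hcon
  have hy : y ≠ 0 := by
    rintro rfl
    have h5 : x * (x + 9) * (x - 16) = 0 := by rw [← h]; ring
    rcases mul_eq_zero.mp h5 with h6 | h6
    · rcases mul_eq_zero.mp h6 with h7 | h7
      · exact h0 h7
      · exact h9 (by linarith)
    · exact h16 (by linarith)
  have hf3 : x ^ 2 - 32 * x - 144 ≠ 0 := by
    have : x ^ 2 - 32 * x - 144 = (x - 36) * (x + 4) := by ring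
    rw [this]
    exact mul_ne_zero (sub_ne_zero.mpr h36) (fun h5 => h4 (by linarith))
  refine no_triple (x := ((x ^ 2 + 144) / (2 * y)) ^ 2) ⟨(x ^ 2 + 144) / (2 * y), by ring⟩
    ⟨(x ^ 2 + 18 * x - 144) / (2 * y), ?_⟩ ⟨(x ^ 2 - 32 * x - 144) / (2 * y), ?_⟩ ?_
  · field_simp
    linear_combination 36 * h
  · field_simp
    linear_combination (-64) * h
  · have h5 : ((x ^ 2 + 144) / (2 * y)) ^ 2 - 16 = ((x ^ 2 - 32 * x - 144) / (2 * y)) ^ 2 := by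
      field_simp
      linear_combination (-64) * h
    rw [h5]
    exact pow_ne_zero 2 (div_ne_zero hf3 (mul_ne_zero two_ne_zero hy))


end Fermat.Agent.S51
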