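import Mathlib
import Fermat.Agent.S51.Descent
import Fermat.Prelude.Def_FLTPrelim_Modularity

/-!
# S51, part B (+ D): the algebraic core

From the `x`-coordinate `x3` of a rational 3-isogeny kernel and the symmetric functions `e1, e2` of
the `x`-coordinates of a rational 5-isogeny kernel, we get a rational point on
`y ^ 2 = x * (x + 9) * (x - 16)`, hence finitely many possibilities for `(c₄, Δ)` up to scaling.
-/

namespace Fermat.Agent.S51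

section Field

variable {K : Type*} [Field K]

/-- The two duplication relations `x(2P) = x2`, `x(4P) = x1` determine `b6` and `b8`. -/
theorem b6_b8_of_dup (b2 b4 b6 b8 x1 x2 : K) (h12 : x1 ≠ x2)
    (h1 : x2 * (4 * x1 ^ 3 + b2 * x1 ^ 2 + 2 * b4 * x1 + b6) =
      x1 ^ 4 - b4 * x1 ^ 2 - 2 * b6 * x1 - b8)
    (h2 : x1 * (4 * x2 ^ 3 + b2 * x2 ^ 2 + 2 * b4 * x2 + b6) =
      x2 ^ 4 - b4 * x2 ^ 2 - 2 * b6 * x2 - b8) :
    b6 = (x1 + x2) ^ 3 - 6 * (x1 + x2) * (x1 * x2) - b2 * (x1 * x2) - b4 * (x1 + x2) ∧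
    b8 = -(x1 + x2) ^ 4 + 5 * (x1 + x2) ^ 2 * (x1 * x2) + 5 * (x1 * x2) ^ 2
      + b2 * (x1 + x2) * (x1 * x2) + b4 * (x1 + x2) ^ 2 - b4 * (x1 * x2) := by
  have hne : x1 - x2 ≠ 0 := sub_ne_zero.mpr h12
  have h6 : b6 = (x1 + x2) ^ 3 - 6 * (x1 + x2) * (x1 * x2) - b2 * (x1 * x2) - b4 * (x1 + x2) := by
    apply mul_left_cancel₀ hne
    linear_combination h1 - h2
  refine ⟨h6, ?_⟩
  rw [h6] at h1
  linear_combination h1

end Field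

/-- The core computation over `ℚ`. -/
theorem core_rat (b2 b4 b6 b8 e1 e2 x3 : ℚ) (hb : 4 * b8 = b2 * b6 - b4 ^ 2)
    (h6 : b6 = e1 ^ 3 - 6 * e1 * e2 - b2 * e2 - b4 * e1)
    (h8 : b8 = -e1 ^ 4 + 5 * e1 ^ 2 * e2 + 5 * e2 ^ 2 + b2 * e1 * e2 + b4 * e1 ^ 2 - b4 * e2)
    (hD : e1 ^ 2 - 4 * e2 ≠ 0)
    (h3 : 3 * x3 ^ 4 + b2 * x3 ^ 3 + 3 * b4 * x3 ^ 2 + 3 * b6 * x3 + b8 = 0) :
    ∃ D s : ℚ, D ≠ 0 ∧ (s = -25 / 2 ∨ s = -25 / 8 ∨ s = -10 ∨ s = -40 ∨ s = 0) ∧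
      b2 ^ 2 - 24 * b4 = D * (s ^ 2 + 10 * s + 5) ∧
      -b2 ^ 2 * b8 - 8 * b4 ^ 3 - 27 * b6 ^ 2 + 9 * b2 * b4 * b6 = D ^ 3 * s := by
  subst h6 h8
  set D : ℚ := e1 ^ 2 - 4 * e2 with hDdef
  set W : ℚ := 2 * b4 + b2 * e1 + 4 * e1 ^ 2 - 4 * e2 with hW
  set V : ℚ := (2 * x3 - e1) * (b2 + 6 * e1) with hV
  set m : ℚ := -(x3 ^ 2 - e1 * x3 + e2) with hm
  have B1 : (D - m) * V + (D - 3 * m) * W + 6 * m ^ 2 = 0 := by
    rw [hDdef, hW, hV, hm]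
    linear_combination 2 * h3
  have B2' : D * (b2 + 6 * e1) ^ 2 = W ^ 2 + 4 * D ^ 2 := by
    rw [hDdef, hW]
    linear_combination (-4) * hb
  have B2 : D * V ^ 2 = (D - 4 * m) * (W ^ 2 + 4 * D ^ 2) := by
    have : D - 4 * m = (2 * x3 - e1) ^ 2 := by rw [hDdef, hm]; ring
    rw [this, ← B2', hV]; ring
  have C4 : b2 ^ 2 - 24 * b4 = (b2 + 6 * e1) ^ 2 - 12 * W + 12 * D := by
    rw [hDdef, hW]; ring
  have DE : -b2 ^ 2 * (-e1 ^ 4 + 5 * e1 ^ 2 * e2 + 5 * e2 ^ 2 + b2 * e1 * e2 + b4 * e1 ^ 2 - b4 * e2)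
      - 8 * b4 ^ 3 - 27 * (e1 ^ 3 - 6 * e1 * e2 - b2 * e2 - b4 * e1) ^ 2
      + 9 * b2 * b4 * (e1 ^ 3 - 6 * e1 * e2 - b2 * e2 - b4 * e1)
      = D ^ 2 * (W - 11 * D) + (3 * D - W + (3 * b2 * e1 + 9 * e1 ^ 2) / 4) *
        (W ^ 2 + 4 * D ^ 2 - D * (b2 + 6 * e1) ^ 2) := by
    rw [hDdef, hW]; ring
  rw [DE, B2', C4]
  clear DE C4 hb h3
  -- pass to the ratios
  obtain ⟨μ, hμ⟩ : ∃ μ, m = μ * D := ⟨m / D, by field_simp⟩
  obtain ⟨w, hw⟩ : ∃ w, W = w * D := ⟨W / D, by field_simp⟩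
  obtain ⟨v, hv⟩ : ∃ v, V = v * D := ⟨V / D, by field_simp⟩
  have hD2 : D ^ 2 ≠ 0 := pow_ne_zero 2 hD
  have hD3 : D ^ 3 ≠ 0 := pow_ne_zero 3 hD
  have b1 : (1 - μ) * v + (1 - 3 * μ) * w + 6 * μ ^ 2 = 0 := by
    apply mul_left_cancel₀ hD2
    rw [hμ, hw, hv] at B1
    linear_combination B1
  have b2' : v ^ 2 = (1 - 4 * μ) * (w ^ 2 + 4) := by
    apply mul_left_cancel₀ hD3
    rw [hμ, hw, hv] at B2
    linear_combination B2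
  have hβ : (b2 + 6 * e1) ^ 2 = D * (w ^ 2 + 4) := by
    apply mul_left_cancel₀ hD
    rw [B2', hw]; ring
  refine ⟨D, w - 11, hD, ?_, by rw [hβ, hw]; ring, by rw [hw]; ring⟩
  -- the quadratic relation between `μ` and `w`
  have quad : 4 * μ ^ 3 * w ^ 2 + 12 * μ ^ 2 * (1 - 3 * μ) * w + 36 * μ ^ 4
      - 4 * (1 - μ) ^ 2 * (1 - 4 * μ) = 0 := by
    have h : ((1 - 3 * μ) * w + 6 * μ ^ 2) ^ 2 = (1 - μ) ^ 2 * v ^ 2 := by
      have : (1 - 3 * μ) * w + 6 * μ ^ 2 = -((1 - μ) * v) := by linear_combination b1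
      rw [this]; ring
    rw [b2'] at h
    linear_combination h
  have hμ1 : 1 - μ ≠ 0 := by
    intro h
    have hμ' : μ = 1 := by linarith
    rw [hμ'] at b1 b2'
    have hw3 : w = 3 := by linarith
    rw [hw3] at b2'
    nlinarith [sq_nonneg v]
  have hpt := x0_15_rational_points (-36 * μ)
    (36 * ((2 * μ ^ 2 * w + 3 * μ * (1 - 3 * μ)) / (1 - μ)))
    (by
      have hN : (2 * μ ^ 2 * w + 3 * μ * (1 - 3 * μ)) ^ 2
          = μ * (1 - 4 * μ) * (4 + 9 * μ) * (1 - μ) ^ 2 := by linear_combination μ * quad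
      rw [mul_pow, div_pow, hN, mul_div_assoc, div_self (pow_ne_zero 2 hμ1)]
      ring)
  rcases hpt with h | h | h | h | h
  · exfalso
    have hμ' : μ = 0 := by linarith
    rw [hμ'] at quad
    norm_num at quad
  · have hμ' : μ = 1 / 4 := by linarith
    rw [hμ'] at quad
    have : (w + 3 / 2) ^ 2 = 0 := by linear_combination 16 * quad
    have : w + 3 / 2 = 0 := by simpa using this
    left; linarith
  · have hμ' : μ = -4 / 9 := by linarith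
    rw [hμ'] at quad
    have : (w - 63 / 8) ^ 2 = 0 := by linear_combination (-729 / 256) * quad
    have : w - 63 / 8 = 0 := by simpa using this
    right; left; linarith
  · have hμ' : μ = -1 := by linarith
    rw [hμ'] at quad
    have : (w - 1) * (w - 11) = 0 := by linear_combination (-1 / 4) * quad
    rcases mul_eq_zero.mp this with h | h
    · right; right; left; linarith
    · right; right; right; right; linarith
  · have hμ' : μ = 1 / 9 := by linarith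
    rw [hμ'] at quad
    have : (w - 11) * (w + 29) = 0 := by linear_combination (729 / 4) * quad
    rcases mul_eq_zero.mp this with h | h
    · right; right; right; right; linarith
    · right; right; right; left; linarith


lemma prime_five_int : Prime (5 : ℤ) := by
  rw [Int.prime_iff_natAbs_prime]; norm_num

/-- arithmetic endgame: from `A * c4 ^ 3 = 5 * B * Δ` with `5 ∤ A`, and
`25 * A * k ^ 3 = B * Δ → 5 ∣ Δ`. -/
lemma five_dvd_both {c4 Δ A B : ℤ} (h : A * c4 ^ 3 = 5 * (B * Δ)) (hA : ¬ (5 : ℤ) ∣ A)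
    (hB : ¬ (25 : ℤ) ∣ B) : (5 : ℤ) ∣ c4 ∧ (5 : ℤ) ∣ Δ := by
  have h5 := prime_five_int
  have h1 : (5 : ℤ) ∣ A * c4 ^ 3 := ⟨_, h⟩
  have h2 : (5 : ℤ) ∣ c4 := h5.dvd_of_dvd_pow ((h5.dvd_or_dvd h1).resolve_left hA)
  refine ⟨h2, ?_⟩
  obtain ⟨k, rfl⟩ := h2
  have h3 : B * Δ = 25 * (A * k ^ 3) := by linarith
  by_contra hΔ
  -- `5 ∣ B`, `B = 5 B'`, `B' Δ = 5 ...` so `5 ∣ B'`
  have h4 : (5 : ℤ) ∣ B * Δ := ⟨5 * (A * k ^ 3), by rw [h3]; ring⟩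
  obtain ⟨B', rfl⟩ := (h5.dvd_or_dvd h4).resolve_right hΔ
  have h5' : B' * Δ = 5 * (A * k ^ 3) := by linarith
  have h6 : (5 : ℤ) ∣ B' * Δ := ⟨_, h5'⟩
  obtain ⟨B'', rfl⟩ := (h5.dvd_or_dvd h6).resolve_right hΔ
  exact hB ⟨B'', by ring⟩

/-- Part D: the four exceptional `j`-invariants are not semistable at `5`. -/
theorem not_semistable_at_five (c4 Δ : ℤ) (hΔ : Δ ≠ 0) (hss : (5 : ℤ) ∣ Δ → ¬ (5 : ℤ) ∣ c4)
    (D s : ℚ) (hs : s = -25 / 2 ∨ s = -25 / 8 ∨ s = -10 ∨ s = -40 ∨ s = 0)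
    (h4 : (c4 : ℚ) = D * (s ^ 2 + 10 * s + 5)) (hd : (Δ : ℚ) = D ^ 3 * s) : False := by
  have key : (c4 : ℚ) ^ 3 * s = Δ * (s ^ 2 + 10 * s + 5) ^ 3 := by rw [h4, hd]; ring
  rcases hs with rfl | rfl | rfl | rfl | rfl
  · have h : (-32 : ℤ) * c4 ^ 3 = 5 * (24389 * Δ) := by
      have : ((-32 : ℤ) : ℚ) * (c4 : ℚ) ^ 3 = 5 * (24389 * (Δ : ℚ)) := by
        push_cast; linear_combination (64 / 25 : ℚ) * key
      exact_mod_cast this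
    obtain ⟨h1, h2⟩ := five_dvd_both h (by norm_num) (by norm_num)
    exact hss h2 h1
  · have h : (32768 : ℤ) * c4 ^ 3 = 5 * (9393931 * Δ) := by
      have : ((32768 : ℤ) : ℚ) * (c4 : ℚ) ^ 3 = 5 * (9393931 * (Δ : ℚ)) := by
        push_cast; linear_combination (-262144 / 25 : ℚ) * key
      exact_mod_cast this
    obtain ⟨h1, h2⟩ := five_dvd_both h (by norm_num) (by norm_num)
    exact hss h2 h1
  · have h : (-2 : ℤ) * c4 ^ 3 = 5 * (5 * Δ) := by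
      have : ((-2 : ℤ) : ℚ) * (c4 : ℚ) ^ 3 = 5 * (5 * (Δ : ℚ)) := by
        push_cast; linear_combination (1 / 5 : ℚ) * key
      exact_mod_cast this
    obtain ⟨h1, h2⟩ := five_dvd_both h (by norm_num) (by norm_num)
    exact hss h2 h1
  · have h : (-8 : ℤ) * c4 ^ 3 = 5 * (69987605 * Δ) := by
      have : ((-8 : ℤ) : ℚ) * (c4 : ℚ) ^ 3 = 5 * (69987605 * (Δ : ℚ)) := by
        push_cast; linear_combination (1 / 5 : ℚ) * key
      exact_mod_cast this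
    obtain ⟨h1, h2⟩ := five_dvd_both h (by norm_num) (by norm_num)
    exact hss h2 h1
  · apply hΔ
    have : (Δ : ℚ) = 0 := by rw [hd]; ring
    exact_mod_cast this

/-- The algebraic core of S51 (parts B, C, D together): an integral model which is semistable at `5`
cannot have both a rational root `x3` of `ψ₃` and a pair `x1 ≠ x2` (in an extension field) with
rational symmetric functions and `x(2 P) = x2`, `x(4 P) = x1`. -/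
theorem core_int (b2 b4 b6 b8 : ℤ) (hb : 4 * b8 = b2 * b6 - b4 ^ 2)
    (hΔ : -b2 ^ 2 * b8 - 8 * b4 ^ 3 - 27 * b6 ^ 2 + 9 * b2 * b4 * b6 ≠ 0)
    (hss : (5 : ℤ) ∣ -b2 ^ 2 * b8 - 8 * b4 ^ 3 - 27 * b6 ^ 2 + 9 * b2 * b4 * b6 →
      ¬ (5 : ℤ) ∣ b2 ^ 2 - 24 * b4)
    {K : Type*} [Field K] [CharZero K] (x1 x2 : K) (e1 e2 x3 : ℚ)
    (he1 : x1 + x2 = (e1 : K)) (he2 : x1 * x2 = (e2 : K)) (h12 : x1 ≠ x2)
    (h1 : x2 * (4 * x1 ^ 3 + (b2 : K) * x1 ^ 2 + 2 * (b4 : K) * x1 + (b6 : K)) =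
      x1 ^ 4 - (b4 : K) * x1 ^ 2 - 2 * (b6 : K) * x1 - (b8 : K))
    (h2 : x1 * (4 * x2 ^ 3 + (b2 : K) * x2 ^ 2 + 2 * (b4 : K) * x2 + (b6 : K)) =
      x2 ^ 4 - (b4 : K) * x2 ^ 2 - 2 * (b6 : K) * x2 - (b8 : K))
    (h3 : 3 * x3 ^ 4 + (b2 : ℚ) * x3 ^ 3 + 3 * (b4 : ℚ) * x3 ^ 2 + 3 * (b6 : ℚ) * x3 + (b8 : ℚ) = 0) :
    False := by
  obtain ⟨h6, h8⟩ := b6_b8_of_dup (b2 : K) b4 b6 b8 x1 x2 h12 h1 h2
  rw [he1, he2] at h6 h8
  have h6' : (b6 : ℚ) = e1 ^ 3 - 6 * e1 * e2 - b2 * e2 - b4 * e1 := by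
    have : (((b6 : ℚ)) : K) = ((e1 ^ 3 - 6 * e1 * e2 - b2 * e2 - b4 * e1 : ℚ) : K) := by
      push_cast; exact h6
    exact_mod_cast this
  have h8' : (b8 : ℚ) = -e1 ^ 4 + 5 * e1 ^ 2 * e2 + 5 * e2 ^ 2 + b2 * e1 * e2 + b4 * e1 ^ 2
      - b4 * e2 := by
    have : (((b8 : ℚ)) : K) = ((-e1 ^ 4 + 5 * e1 ^ 2 * e2 + 5 * e2 ^ 2 + b2 * e1 * e2 + b4 * e1 ^ 2
      - b4 * e2 : ℚ) : K) := by
      push_cast; exact h8
    exact_mod_cast this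
  have hD : e1 ^ 2 - 4 * e2 ≠ 0 := by
    intro h
    have : ((e1 ^ 2 - 4 * e2 : ℚ) : K) = 0 := by rw [h]; simp
    push_cast at this
    rw [← he1, ← he2] at this
    have h' : (x1 - x2) ^ 2 = 0 := by linear_combination this
    exact h12 (sub_eq_zero.mp (by simpa using h'))
  obtain ⟨D, s, -, hs, hc4, hdisc⟩ := core_rat (b2 : ℚ) b4 b6 b8 e1 e2 x3
    (by exact_mod_cast hb) h6' h8' hD h3
  exact not_semistable_at_five (b2 ^ 2 - 24 * b4)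
    (-b2 ^ 2 * b8 - 8 * b4 ^ 3 - 27 * b6 ^ 2 + 9 * b2 * b4 * b6) hΔ hss D s hs
    (by push_cast; exact hc4) (by push_cast; exact hdisc)

/-- `core_int` for a semistable integral Weierstrass model. -/
theorem core_weierstrass (W : WeierstrassCurve ℤ) (hΔ : W.Δ ≠ 0) (hW : W.IsSemistableModel)
    {K : Type*} [Field K] [CharZero K] (x1 x2 : K) (e1 e2 x3 : ℚ)
    (he1 : x1 + x2 = (e1 : K)) (he2 : x1 * x2 = (e2 : K)) (h12 : x1 ≠ x2)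
    (h1 : x2 * (4 * x1 ^ 3 + (W.b₂ : K) * x1 ^ 2 + 2 * (W.b₄ : K) * x1 + (W.b₆ : K)) =
      x1 ^ 4 - (W.b₄ : K) * x1 ^ 2 - 2 * (W.b₆ : K) * x1 - (W.b₈ : K))
    (h2 : x1 * (4 * x2 ^ 3 + (W.b₂ : K) * x2 ^ 2 + 2 * (W.b₄ : K) * x2 + (W.b₆ : K)) =
      x2 ^ 4 - (W.b₄ : K) * x2 ^ 2 - 2 * (W.b₆ : K) * x2 - (W.b₈ : K))
    (h3 : 3 * x3 ^ 4 + (W.b₂ : ℚ) * x3 ^ 3 + 3 * (W.b₄ : ℚ) * x3 ^ 2 + 3 * (W.b₆ : ℚ) * x3
      + (W.b₈ : ℚ) = 0) :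
    False :=
  core_int W.b₂ W.b₄ W.b₆ W.b₈ W.b_relation hΔ
    (fun h => hW 5 (by norm_num) (by exact_mod_cast h)) x1 x2 e1 e2 x3 he1 he2 h12 h1 h2 h3

end Fermat.Agent.S51
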