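import Fermat.Agent.S51.Torsion

set_option autoImplicit false

namespace Fermat.Agent.S51

open WeierstrassCurve WeierstrassCurve.Affine

section General

variable {F : Type*} [Field F] {W : WeierstrassCurve.Affine F}

/-- A set of points whose `x`-coordinates are roots of a nonzero polynomial is finite,
with an explicit bound. -/
lemma finite_of_roots (G : Polynomial F) (hG : G ≠ 0) (A : Set W.Point)
    (hA : ∀ P ∈ A, P ≠ 0 → G.eval (xOf W P) = 0) :
    A.Finite ∧ A.ncard ≤ 2 * (G.natDegree + 1) := by
  classical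
  set T : Finset (Fin 2 → F) := insert ![1, 0] (G.roots.toFinset.image (fun x => ![x, 1])) with hT
  have hmaps : ∀ P ∈ A, P.xRep ∈ T := by
    intro P hP
    match P, hP with
    | .zero, _ => exact Finset.mem_insert_self _ _
    | .some x y h, hP =>
      apply Finset.mem_insert_of_mem
      apply Finset.mem_image.mpr
      refine ⟨x, ?_, rfl⟩
      rw [Multiset.mem_toFinset, Polynomial.mem_roots hG]
      exact hA _ hP (Point.some_ne_zero _)
  have hfib : ∀ P₀ : W.Point, ∀ P : W.Point, P.xRep = P₀.xRep → P ∈ ({P₀, -P₀} : Finset W.Point) := by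
    intro P₀ P h
    rcases Point.xRep_eq_xRep_iff.mp h with h | h <;> simp [h]
  have hfin : A.Finite := by
    apply Set.Finite.of_finite_fibers Point.xRep
    · apply T.finite_toSet.subset
      rintro _ ⟨P, hP, rfl⟩
      exact hmaps P hP
    · rintro _ ⟨P₀, _, rfl⟩
      apply (({P₀, -P₀} : Finset W.Point).finite_toSet).subset
      rintro P ⟨_, hP⟩
      exact hfib P₀ P hP
  refine ⟨hfin, ?_⟩
  rw [Set.ncard_eq_toFinset_card A hfin]
  have hTcard : T.card ≤ G.natDegree + 1 := by
    refine (Finset.card_insert_le _ _).trans ?_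
    gcongr
    refine Finset.card_image_le.trans ?_
    exact (Multiset.toFinset_card_le _).trans (Polynomial.card_roots' G)
  refine (Finset.card_le_mul_card_image_of_maps_to (f := Point.xRep) (t := T)
    (fun P hP => hmaps P (hfin.mem_toFinset.mp hP)) 2 ?_).trans (by gcongr)
  intro b _
  by_cases hne : (Finset.filter (fun a => a.xRep = b) hfin.toFinset).Nonempty
  · obtain ⟨P₀, hP₀⟩ := hne
    have hb := (Finset.mem_filter.mp hP₀).2
    refine (Finset.card_le_card (t := {P₀, -P₀}) ?_).trans Finset.card_le_two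
    intro P hP
    exact hfib P₀ P ((Finset.mem_filter.mp hP).2.trans hb.symm)
  · rw [Finset.not_nonempty_iff_eq_empty.mp hne]; simp

end General

/-- In a small `ZMod p`-vector space every proper nonzero subspace is a line. -/
lemma exists_generator_of_submodule {p : ℕ} [Fact p.Prime] {A : Type*} [AddCommGroup A]
    [Module (ZMod p) A] [Finite A] (hcard : Nat.card A < p ^ 3) (N : Submodule (ZMod p) A)
    (h1 : N ≠ ⊥) (h2 : N ≠ ⊤) :
    ∃ P ∈ N, P ≠ 0 ∧ ∀ Q ∈ N, ∃ k : ℕ, Q = k • P := by
  have hfr : Module.finrank (ZMod p) A < 3 := by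
    have := Module.natCard_eq_pow_finrank (K := ZMod p) (V := A)
    rw [this, Nat.card_zmod] at hcard
    exact (Nat.pow_lt_pow_iff_right (Fact.out : p.Prime).one_lt).mp hcard
  have hN1 : Module.finrank (ZMod p) N < Module.finrank (ZMod p) A :=
    Submodule.finrank_lt h2
  have hN0 : 0 < Module.finrank (ZMod p) N := by
    rw [Module.finrank_pos_iff]
    exact Submodule.nontrivial_iff_ne_bot.mpr h1
  have hN : Module.finrank (ZMod p) N = 1 := by omega
  obtain ⟨v, hv0, hv⟩ := finrank_eq_one_iff'.mp hN
  refine ⟨v, v.2, fun h => hv0 (Subtype.ext h), ?_⟩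
  intro Q hQ
  obtain ⟨c, hc⟩ := hv ⟨Q, hQ⟩
  refine ⟨c.val, ?_⟩
  have := congrArg Subtype.val hc
  simp only [Submodule.coe_smul] at this
  rw [← this, ← Nat.cast_smul_eq_nsmul (ZMod p), ZMod.natCast_zmod_val]

end Fermat.Agent.S51
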