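import Fermat.Agent.S51.Polys

set_option autoImplicit false

namespace Fermat.Agent.S51

open WeierstrassCurve WeierstrassCurve.Affine Polynomial

section AlgClosed

variable {K : Type*} [Field K] [IsAlgClosed K] [CharZero K] {W : WeierstrassCurve.Affine K}

/-- Over an algebraically closed field every `x` is the `x`-coordinate of a point. -/
lemma exists_point_of_x (hΔ : W.Δ ≠ 0) (x : K) : ∃ P : W.Point, P ≠ 0 ∧ xOf W P = x := by
  obtain ⟨z, hz⟩ := IsAlgClosed.exists_pow_nat_eq (psi2sq W x) (n := 2) (by norm_num)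
  have heq : W.Equation x ((z - (W.a₁ * x + W.a₃)) / 2) := by
    rw [Affine.equation_iff]
    simp only [psi2sq, WeierstrassCurve.b₂, WeierstrassCurve.b₄, WeierstrassCurve.b₆] at hz
    field_simp
    linear_combination hz
  exact ⟨.some x _ ((Affine.equation_iff_nonsingular_of_Δ_ne_zero hΔ).mp heq),
    Point.some_ne_zero _, rfl⟩

variable [DecidableEq K]

lemma exists_three_torsion (hΔ : W.Δ ≠ 0) : ∃ P : W.Point, P ≠ 0 ∧ 3 • P = 0 := by
  have hdeg : (psi3Poly W).degree ≠ 0 := by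
    intro h
    have h0 : (psi3Poly W).natDegree = 0 := natDegree_eq_of_degree_eq_some h
    have : (psi3Poly W).coeff 4 = 0 := coeff_eq_zero_of_natDegree_lt (by omega)
    rw [coeff_psi3Poly] at this
    norm_num at this
  obtain ⟨x, hx⟩ := IsAlgClosed.exists_root _ hdeg
  obtain ⟨P, hP, rfl⟩ := exists_point_of_x hΔ x
  refine ⟨P, hP, three_nsmul_of_psi3 hΔ hP ?_⟩
  rw [← eval_psi3Poly]; exact hx

/-- The Tate normal form of a curve with a point of order `5`. -/
def tateCurve (b : K) : WeierstrassCurve K := ⟨1 - b, -b, -b, 0, 0⟩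

omit [IsAlgClosed K] [CharZero K] [DecidableEq K] in
lemma tateCurve_Δ (b : K) : (tateCurve b).Δ = b ^ 5 * (b ^ 2 - 11 * b - 1) := by
  simp only [tateCurve, WeierstrassCurve.Δ, WeierstrassCurve.b₂, WeierstrassCurve.b₄,
    WeierstrassCurve.b₆, WeierstrassCurve.b₈]
  ring

omit [IsAlgClosed K] [CharZero K] [DecidableEq K] in
lemma tateCurve_c₄ (b : K) : (tateCurve b).c₄ = b ^ 4 - 12 * b ^ 3 + 14 * b ^ 2 + 12 * b + 1 := by
  simp only [tateCurve, WeierstrassCurve.c₄, WeierstrassCurve.b₂, WeierstrassCurve.b₄]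
  ring

omit [DecidableEq K] in
/-- Every elliptic curve over an algebraically closed field of characteristic zero can be put
in Tate normal form, at the level of `b`-invariants. -/
lemma exists_tate_param (hΔ : W.Δ ≠ 0) :
    ∃ l b x1 : K, l ≠ 0 ∧ b ≠ 0 ∧
      W.b₂ = l * (b ^ 2 - 6 * b + 1) - 12 * x1 ∧
      W.b₄ = l ^ 2 * (b ^ 2 - b) - x1 * W.b₂ - 6 * x1 ^ 2 ∧
      W.b₆ = l ^ 3 * b ^ 2 - 2 * x1 * W.b₄ - x1 ^ 2 * W.b₂ - 4 * x1 ^ 3 ∧
      W.b₈ = -l ^ 4 * b ^ 3 - 3 * x1 * W.b₆ - 3 * x1 ^ 2 * W.b₄ - x1 ^ 3 * W.b₂ - 3 * x1 ^ 4 := by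
  have : W.IsElliptic := ⟨isUnit_iff_ne_zero.mpr hΔ⟩
  set j := W.j with hj
  -- choose `b`
  set p : K[X] := (X ^ 4 - C 12 * X ^ 3 + C 14 * X ^ 2 + C 12 * X + C 1) ^ 3
    - C j * (X ^ 5 * (X ^ 2 - C 11 * X - C 1)) with hp
  have hdeg : p.degree ≠ 0 := by
    intro h
    have h0 : p.natDegree = 0 := natDegree_eq_of_degree_eq_some h
    have h1 : p.coeff 12 = 0 := coeff_eq_zero_of_natDegree_lt (by omega)
    have h2 : p.coeff 12 = 1 := by rw [hp]; compute_degree!
    rw [h2] at h1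
    exact one_ne_zero h1
  obtain ⟨b, hb⟩ := IsAlgClosed.exists_root p hdeg
  have hb' : (b ^ 4 - 12 * b ^ 3 + 14 * b ^ 2 + 12 * b + 1) ^ 3
      = j * (b ^ 5 * (b ^ 2 - 11 * b - 1)) := by
    have : p.eval b = 0 := hb
    simp only [hp, eval_sub, eval_add, eval_mul, eval_pow, eval_C, eval_X] at this
    linear_combination this
  have hb0 : b ≠ 0 := by
    rintro rfl
    norm_num at hb'
  have hΔb : (tateCurve b).Δ ≠ 0 := by
    rw [tateCurve_Δ]
    intro h
    rw [h, mul_zero] at hb'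
    have h1 := pow_eq_zero_iff (three_ne_zero) |>.mp hb'
    have h2 : b ^ 2 - 11 * b - 1 = 0 := by
      rcases mul_eq_zero.mp h with h | h
      · exact absurd (pow_eq_zero_iff (by norm_num) |>.mp h) hb0
      · exact h
    have h3 : 5 * b ^ 2 = 0 := by
      linear_combination h1 - (b ^ 2 - b - 1) * h2
    rcases mul_eq_zero.mp h3 with h | h
    · norm_num at h
    · exact hb0 (pow_eq_zero_iff (by norm_num) |>.mp h)
  have : (tateCurve b).IsElliptic := ⟨isUnit_iff_ne_zero.mpr hΔb⟩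
  have hjj : (tateCurve b).j = W.j := by
    rw [← hj, WeierstrassCurve.j, tateCurve_c₄, hb', ← tateCurve_Δ, ← WeierstrassCurve.coe_Δ']
    rw [mul_comm j, ← mul_assoc, Units.inv_mul, one_mul]
  obtain ⟨C, hC⟩ := WeierstrassCurve.exists_variableChange_of_j_eq (tateCurve b) W hjj
  have e2 := WeierstrassCurve.variableChange_b₂ (tateCurve b) C
  have e4 := WeierstrassCurve.variableChange_b₄ (tateCurve b) C
  have e6 := WeierstrassCurve.variableChange_b₆ (tateCurve b) C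
  have e8 := WeierstrassCurve.variableChange_b₈ (tateCurve b) C
  rw [hC] at e2 e4 e6 e8
  have t2 : (tateCurve b).b₂ = b ^ 2 - 6 * b + 1 := by
    simp only [tateCurve, WeierstrassCurve.b₂]; ring
  have t4 : (tateCurve b).b₄ = b ^ 2 - b := by
    simp only [tateCurve, WeierstrassCurve.b₄]; ring
  have t6 : (tateCurve b).b₆ = b ^ 2 := by
    simp only [tateCurve, WeierstrassCurve.b₆]; ring
  have t8 : (tateCurve b).b₈ = -b ^ 3 := by
    simp only [tateCurve, WeierstrassCurve.b₈]; ring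
  rw [t2] at e2
  rw [t2, t4] at e4
  rw [t2, t4, t6] at e6
  rw [t2, t4, t6, t8] at e8
  set u : K := ((C.u⁻¹ : Kˣ) : K) with hu
  have hu0 : u ≠ 0 := Units.ne_zero _
  refine ⟨u ^ 2, b, -(u ^ 2 * C.r), pow_ne_zero 2 hu0, hb0, ?_, ?_, ?_, ?_⟩
  · rw [e2]; ring
  · rw [e4, e2]; ring
  · rw [e6, e4, e2]; ring
  · rw [e8, e6, e4, e2]; ring

lemma exists_five_torsion (hΔ : W.Δ ≠ 0) : ∃ P : W.Point, P ≠ 0 ∧ 5 • P = 0 := by
  obtain ⟨l, b, x1, hl, hb, h2, h4, h6, h8⟩ := exists_tate_param hΔ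
  obtain ⟨P, hP, hx⟩ := exists_point_of_x hΔ x1
  refine ⟨P, hP, five_nsmul_of_relations hP (x1 + l * b) ?_ ?_ ?_ ?_ ?_⟩
  · rw [hx]
    intro h
    have : l * b = 0 := by linear_combination -h
    exact mul_ne_zero hl hb this
  · have : psi2sq W (xOf W P) = l ^ 3 * b ^ 2 := by
      rw [hx, psi2sq, h6]; ring
    rw [this]; positivity
  · have : psi2sq W (x1 + l * b) = l ^ 3 * b ^ 4 := by
      rw [psi2sq, h6, h4, h2]; ring
    rw [this]; positivity
  · rw [hx, psi2sq, phi2, h8, h6, h4, h2]; ring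
  · rw [hx, psi2sq, phi2, h8, h6, h4, h2]; ring

end AlgClosed

end Fermat.Agent.S51
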