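import Fermat.Agent.S51.Exist
import Fermat.Prelude.Def_FLTPrelim_GaloisRep

set_option autoImplicit false

namespace Fermat.Agent.S51

open WeierstrassCurve WeierstrassCurve.Affine WeierstrassCurve.Affine.Point Polynomial

section Galois

variable {K : Type*} [Field K] [DecidableEq K] [Algebra ℚ K]
variable {E : WeierstrassCurve.Affine ℚ}

lemma xOf_smul (σ : K ≃ₐ[ℚ] K) (P : (E⁄K).Point) : xOf (E⁄K) (σ • P) = σ (xOf (E⁄K) P) := by
  match P with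
  | .zero => exact (map_zero σ).symm
  | .some x y h => rfl

lemma smul_nsmul' (σ : K ≃ₐ[ℚ] K) (k : ℕ) (P : (E⁄K).Point) : σ • (k • P) = k • (σ • P) :=
  (Point.map (W' := E) σ.toAlgHom).map_nsmul k P

lemma mem_torsionBy_iff' (n : ℕ) (P : (E⁄K).Point) :
    P ∈ Submodule.torsionBy ℤ (E⁄K).Point n ↔ n • P = 0 := by
  rw [Submodule.mem_torsionBy_iff, natCast_zsmul]

lemma rat_of_fixed [IsGalois ℚ K] (x : K) (h : ∀ σ : K ≃ₐ[ℚ] K, σ x = x) : ∃ q : ℚ, (q : K) = x := by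
  obtain ⟨q, hq⟩ := (InfiniteGalois.mem_range_algebraMap_iff_fixed x).mpr h
  exact ⟨q, by rw [← hq, eq_ratCast]⟩

variable [CharZero K]

lemma finite_torsion_three :
    Finite (Submodule.torsionBy ℤ (E⁄K).Point (3 : ℕ)) ∧
      Nat.card (Submodule.torsionBy ℤ (E⁄K).Point (3 : ℕ)) < 3 ^ 3 := by
  have hG : psi3Poly (E⁄K) ≠ 0 := by
    intro h
    have := coeff_psi3Poly (E⁄K)
    rw [h] at this
    norm_num at this
  obtain ⟨hfin, hcard⟩ := finite_of_roots (psi3Poly (E⁄K)) hG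
    (Submodule.torsionBy ℤ (E⁄K).Point (3 : ℕ) : Set (E⁄K).Point) (by
      intro P hP hP0
      rw [eval_psi3Poly]
      exact psi3_of_three_nsmul hP0 ((mem_torsionBy_iff' 3 P).mp hP))
  refine ⟨hfin.to_subtype, ?_⟩
  have h1 := natDegree_psi3Poly_le (E⁄K)
  have h2 : Nat.card (Submodule.torsionBy ℤ (E⁄K).Point (3 : ℕ)) =
      (Submodule.torsionBy ℤ (E⁄K).Point (3 : ℕ) : Set (E⁄K).Point).ncard := rfl
  rw [h2]
  omega

lemma finite_torsion_five :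
    Finite (Submodule.torsionBy ℤ (E⁄K).Point (5 : ℕ)) ∧
      Nat.card (Submodule.torsionBy ℤ (E⁄K).Point (5 : ℕ)) < 5 ^ 3 := by
  have hG : g5Poly (E⁄K) ≠ 0 := by
    intro h
    have := coeff_g5Poly (E⁄K)
    rw [h] at this
    norm_num at this
  obtain ⟨hfin, hcard⟩ := finite_of_roots (g5Poly (E⁄K)) hG
    (Submodule.torsionBy ℤ (E⁄K).Point (5 : ℕ) : Set (E⁄K).Point) (by
      intro P hP hP0
      obtain ⟨-, -, R1, R2⟩ := five_torsion_relations hP0 ((mem_torsionBy_iff' 5 P).mp hP)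
      simp only [g5Poly, eval_sub, eval_add, eval_mul, eval_pow, eval_C, eval_X, eval_phi2Poly,
        eval_psi2sqPoly]
      rw [← R1]
      simp only [psi2sq, phi2] at R2
      set x2 := xOf (E⁄K) (2 • P)
      set x1 := xOf (E⁄K) P
      set Ps := psi2sq (E⁄K) x1
      linear_combination (-Ps ^ 4) * R2)
  refine ⟨hfin.to_subtype, ?_⟩
  have h1 := natDegree_g5Poly_le (E⁄K)
  have h2 : Nat.card (Submodule.torsionBy ℤ (E⁄K).Point (5 : ℕ)) =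
      (Submodule.torsionBy ℤ (E⁄K).Point (5 : ℕ) : Set (E⁄K).Point).ncard := rfl
  rw [h2]
  omega

omit [CharZero K] in
lemma nsmul_mod {n : ℕ} {P : (E⁄K).Point} (h : n • P = 0) (k : ℕ) : k • P = (k % n) • P := by
  conv_lhs => rw [← Nat.mod_add_div k n, add_nsmul, mul_nsmul, h, smul_zero, add_zero]

omit [CharZero K] in
lemma xOf_nsmul_three {P : (E⁄K).Point} (h3 : 3 • P = 0) (k : ℕ) (hk : k • P ≠ 0) :
    xOf (E⁄K) (k • P) = xOf (E⁄K) P := by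
  rw [nsmul_mod h3 k] at hk ⊢
  have hlt : k % 3 < 3 := Nat.mod_lt _ (by norm_num)
  interval_cases (k % 3)
  · simp at hk
  · simp
  · have : 2 • P = -P := by
      rw [eq_neg_iff_add_eq_zero, ← h3]; abel
    rw [this, xOf_neg]

omit [CharZero K] in
lemma xOf_nsmul_five {P : (E⁄K).Point} (h5 : 5 • P = 0) (k : ℕ) (hk : k • P ≠ 0) :
    (xOf (E⁄K) (k • P) = xOf (E⁄K) P ∧ xOf (E⁄K) (2 • (k • P)) = xOf (E⁄K) (2 • P)) ∨
    (xOf (E⁄K) (k • P) = xOf (E⁄K) (2 • P) ∧ xOf (E⁄K) (2 • (k • P)) = xOf (E⁄K) P) := by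
  rw [nsmul_mod h5 k] at hk ⊢
  have hlt : k % 5 < 5 := Nat.mod_lt _ (by norm_num)
  have h4 : 4 • P = -P := by
    rw [eq_neg_iff_add_eq_zero, ← h5]; abel
  have h3 : (3 : ℕ) • P = -((2 : ℕ) • P : (E⁄K).Point) := by
    rw [eq_neg_iff_add_eq_zero, ← h5]; abel
  interval_cases (k % 5)
  · simp at hk
  · left; simp
  · right
    refine ⟨rfl, ?_⟩
    rw [smul_smul]; simp only [Nat.reduceMul]
    rw [h4, xOf_neg]
  · right
    refine ⟨by rw [h3, xOf_neg], ?_⟩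
    rw [smul_smul]; simp only [Nat.reduceMul]
    have : 6 • P = P := by
      have : 6 • P = 5 • P + P := by abel
      rw [this, h5, zero_add]
    rw [this]
  · left
    refine ⟨by rw [h4, xOf_neg], ?_⟩
    rw [h4, smul_neg, xOf_neg]

lemma stable_three [IsGalois ℚ K]
    (N : Submodule (ZMod 3) (Submodule.torsionBy ℤ (E⁄K).Point (3 : ℕ)))
    (hst : IsGaloisStable ℚ N) (h1 : N ≠ ⊥) (h2 : N ≠ ⊤) :
    ∃ (P : (E⁄K).Point) (q : ℚ), P ≠ 0 ∧ 3 • P = 0 ∧ xOf (E⁄K) P = (q : K) := by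
  have : Fact (Nat.Prime 3) := ⟨by norm_num⟩
  obtain ⟨hfin, hcard⟩ := finite_torsion_three (K := K) (E := E)
  obtain ⟨v, hvN, hv0, hgen⟩ := exists_generator_of_submodule hcard N h1 h2
  have hP0 : (v : (E⁄K).Point) ≠ 0 := fun h => hv0 (Subtype.ext h)
  have h3 : 3 • (v : (E⁄K).Point) = 0 := (mem_torsionBy_iff' 3 _).mp v.2
  obtain ⟨q, hq⟩ := rat_of_fixed (xOf (E⁄K) (v : (E⁄K).Point)) (by
    intro σ
    obtain ⟨k, hk⟩ := hgen _ (hst σ v hvN)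
    have hk' : σ • (v : (E⁄K).Point) = k • (v : (E⁄K).Point) := congrArg Subtype.val hk
    rw [← xOf_smul, hk']
    apply xOf_nsmul_three h3
    rw [← hk']
    exact (smul_ne_zero_iff_ne σ).mpr hP0)
  exact ⟨v, q, hP0, h3, hq.symm⟩

lemma stable_five [IsGalois ℚ K]
    (N : Submodule (ZMod 5) (Submodule.torsionBy ℤ (E⁄K).Point (5 : ℕ)))
    (hst : IsGaloisStable ℚ N) (h1 : N ≠ ⊥) (h2 : N ≠ ⊤) :
    ∃ (P : (E⁄K).Point) (e1 e2 : ℚ), P ≠ 0 ∧ 5 • P = 0 ∧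
      (e1 : K) = xOf (E⁄K) P + xOf (E⁄K) (2 • P) ∧
      (e2 : K) = xOf (E⁄K) P * xOf (E⁄K) (2 • P) := by
  have : Fact (Nat.Prime 5) := ⟨by norm_num⟩
  obtain ⟨hfin, hcard⟩ := finite_torsion_five (K := K) (E := E)
  obtain ⟨v, hvN, hv0, hgen⟩ := exists_generator_of_submodule hcard N h1 h2
  have hP0 : (v : (E⁄K).Point) ≠ 0 := fun h => hv0 (Subtype.ext h)
  have h5 : 5 • (v : (E⁄K).Point) = 0 := (mem_torsionBy_iff' 5 _).mp v.2
  have key : ∀ σ : K ≃ₐ[ℚ] K,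
      (σ (xOf (E⁄K) (v : (E⁄K).Point)) = xOf (E⁄K) (v : (E⁄K).Point) ∧
        σ (xOf (E⁄K) (2 • (v : (E⁄K).Point))) = xOf (E⁄K) (2 • (v : (E⁄K).Point))) ∨
      (σ (xOf (E⁄K) (v : (E⁄K).Point)) = xOf (E⁄K) (2 • (v : (E⁄K).Point)) ∧
        σ (xOf (E⁄K) (2 • (v : (E⁄K).Point))) = xOf (E⁄K) (v : (E⁄K).Point)) := by
    intro σ
    obtain ⟨k, hk⟩ := hgen _ (hst σ v hvN)
    have hk' : σ • (v : (E⁄K).Point) = k • (v : (E⁄K).Point) := congrArg Subtype.val hk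
    rw [← xOf_smul, ← xOf_smul, smul_nsmul', hk']
    apply xOf_nsmul_five h5
    rw [← hk']
    exact (smul_ne_zero_iff_ne σ).mpr hP0
  obtain ⟨e1, he1⟩ := rat_of_fixed
    (xOf (E⁄K) (v : (E⁄K).Point) + xOf (E⁄K) (2 • (v : (E⁄K).Point))) (by
      intro σ
      rw [map_add]
      rcases key σ with ⟨h, h'⟩ | ⟨h, h'⟩
      · rw [h, h']
      · rw [h, h', add_comm])
  obtain ⟨e2, he2⟩ := rat_of_fixed
    (xOf (E⁄K) (v : (E⁄K).Point) * xOf (E⁄K) (2 • (v : (E⁄K).Point))) (by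
      intro σ
      rw [map_mul]
      rcases key σ with ⟨h, h'⟩ | ⟨h, h'⟩
      · rw [h, h']
      · rw [h, h', mul_comm])
  exact ⟨v, e1, e2, hP0, h5, he1, he2⟩

end Galois

end Fermat.Agent.S51
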