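import Mathlib
import Fermat.Prelude.Def_FLTPrelim_Modularity

set_option autoImplicit false

namespace Fermat.Agent.S51

/-- integer core of part D: a relation `A * c^3 = 5 * B * D` with `5 ∤ A`, `5 ∤ B`
forces `5 ∣ c` and `5 ∣ D`. -/
lemma five_dvd_of_rel {A B c D : ℤ} (hA : ¬ (5 : ℤ) ∣ A) (hB : ¬ (5 : ℤ) ∣ B)
    (h : A * c ^ 3 = 5 * B * D) : (5 : ℤ) ∣ c ∧ (5 : ℤ) ∣ D := by
  have hp : Prime (5 : ℤ) := by norm_num
  have h1 : (5 : ℤ) ∣ A * c ^ 3 := ⟨B * D, by rw [h]; ring⟩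
  have hc : (5 : ℤ) ∣ c := (hp.dvd_or_dvd h1).resolve_left hA |> hp.dvd_of_dvd_pow
  refine ⟨hc, ?_⟩
  obtain ⟨e, rfl⟩ := hc
  have h2 : B * D = 5 * (5 * A * e ^ 3) := by
    have : 5 * (B * D) = 5 * (5 * (5 * A * e ^ 3)) := by linear_combination -h
    exact mul_left_cancel₀ (by norm_num) this
  have h3 : (5 : ℤ) ∣ B * D := ⟨_, h2⟩
  exact (hp.dvd_or_dvd h3).resolve_left hB

/-- variant with `25`. -/
lemma five_dvd_of_rel' {A B c D : ℤ} (hA : ¬ (5 : ℤ) ∣ A) (hB : ¬ (5 : ℤ) ∣ B)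
    (h : A * c ^ 3 = 25 * B * D) : (5 : ℤ) ∣ c ∧ (5 : ℤ) ∣ D := by
  have hp : Prime (5 : ℤ) := by norm_num
  have h1 : (5 : ℤ) ∣ A * c ^ 3 := ⟨5 * B * D, by rw [h]; ring⟩
  have hc : (5 : ℤ) ∣ c := (hp.dvd_or_dvd h1).resolve_left hA |> hp.dvd_of_dvd_pow
  refine ⟨hc, ?_⟩
  obtain ⟨e, rfl⟩ := hc
  have h2 : B * D = 5 * (A * e ^ 3) := by
    have : 25 * (B * D) = 25 * (5 * (A * e ^ 3)) := by linear_combination -h
    exact mul_left_cancel₀ (by norm_num) this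
  have h3 : (5 : ℤ) ∣ B * D := ⟨_, h2⟩
  exact (hp.dvd_or_dvd h3).resolve_left hB

lemma semistable_contra (W : WeierstrassCurve ℤ) (hW : W.IsSemistableModel)
    {A B : ℤ} (hA : ¬ (5 : ℤ) ∣ A) (hB : ¬ (5 : ℤ) ∣ B)
    (h : A * W.c₄ ^ 3 = 5 * B * W.Δ ∨ A * W.c₄ ^ 3 = 25 * B * W.Δ) : False := by
  obtain ⟨h1, h2⟩ : (5 : ℤ) ∣ W.c₄ ∧ (5 : ℤ) ∣ W.Δ := by
    rcases h with h | h
    · exact five_dvd_of_rel hA hB h
    · exact five_dvd_of_rel' hA hB h
  exact hW 5 (by norm_num) (by exact_mod_cast h2) (by exact_mod_cast h1)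

/-- the four non-cuspidal rational points of `X₀(15)` give curves that are not semistable at 5 -/
theorem partD_s (W : WeierstrassCurve ℤ) (hW : W.IsSemistableModel) (s : ℚ)
    (hs : s = -25 / 2 ∨ s = -25 / 8 ∨ s = -10 ∨ s = -40)
    (h : (W.c₄ : ℚ) ^ 3 * s = (W.Δ : ℚ) * (s ^ 2 + 10 * s + 5) ^ 3) : False := by
  rcases hs with rfl | rfl | rfl | rfl
  · refine semistable_contra W hW (A := -32) (B := 29 ^ 3) (by norm_num) (by norm_num) (Or.inl ?_)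
    have : ((-32 : ℤ) : ℚ) * (W.c₄ : ℚ) ^ 3 = 5 * ((29 ^ 3 : ℤ) : ℚ) * (W.Δ : ℚ) := by
      push_cast; linear_combination (64 / 25 : ℚ) * h
    exact_mod_cast this
  · refine semistable_contra W hW (A := 32768) (B := 211 ^ 3) (by norm_num) (by norm_num) (Or.inl ?_)
    have : ((32768 : ℤ) : ℚ) * (W.c₄ : ℚ) ^ 3 = 5 * ((211 ^ 3 : ℤ) : ℚ) * (W.Δ : ℚ) := by
      push_cast; linear_combination (-262144 / 25 : ℚ) * h
    exact_mod_cast this
  · refine semistable_contra W hW (A := -2) (B := 1) (by norm_num) (by norm_num) (Or.inr ?_)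
    have : ((-2 : ℤ) : ℚ) * (W.c₄ : ℚ) ^ 3 = 25 * ((1 : ℤ) : ℚ) * (W.Δ : ℚ) := by
      push_cast; linear_combination (1 / 5 : ℚ) * h
    exact_mod_cast this
  · refine semistable_contra W hW (A := -8) (B := 241 ^ 3) (by norm_num) (by norm_num) (Or.inr ?_)
    have : ((-8 : ℤ) : ℚ) * (W.c₄ : ℚ) ^ 3 = 25 * ((241 ^ 3 : ℤ) : ℚ) * (W.Δ : ℚ) := by
      push_cast; linear_combination (1 / 5 : ℚ) * h
    exact_mod_cast this

/-- Part D of S51. -/
theorem partD (W : WeierstrassCurve ℤ) (hΔ : W.Δ ≠ 0) (hW : W.IsSemistableModel) (μ v w : ℚ)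
    (hμ : μ = 1 / 4 ∨ μ = -4 / 9 ∨ μ = -1 ∨ μ = 1 / 9)
    (B1 : (1 - μ) * v + (1 - 3 * μ) * w + 6 * μ ^ 2 = 0)
    (B2 : v ^ 2 = (1 - 4 * μ) * (w ^ 2 + 4))
    (B3 : (W.c₄ : ℚ) ^ 3 * (w - 11) = (W.Δ : ℚ) * ((w - 11) ^ 2 + 10 * (w - 11) + 5) ^ 3) :
    False := by
  have hΔQ : (W.Δ : ℚ) ≠ 0 := by exact_mod_cast hΔ
  have hs0 : w - 11 ≠ 0 := by
    intro h0
    rw [h0] at B3
    apply hΔQ
    have : (W.Δ : ℚ) * 125 = 0 := by linear_combination -B3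
    simpa using this
  refine partD_s W hW (w - 11) ?_ B3
  rcases hμ with rfl | rfl | rfl | rfl
  · left
    have hv : v = 0 := by
      have : v ^ 2 = 0 := by rw [B2]; ring
      exact pow_eq_zero_iff (two_ne_zero) |>.mp this
    rw [hv] at B1
    linear_combination 4 * B1
  · right; left
    have hv : v = -(63 * w + 32) / 39 := by linear_combination (9 / 13 : ℚ) * B1
    rw [hv] at B2
    have h2 : (8 * w - 63) ^ 2 = 0 := by linear_combination (-1521 / 4 : ℚ) * B2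
    have h3 : 8 * w - 63 = 0 := pow_eq_zero_iff (two_ne_zero) |>.mp h2
    linear_combination (1 / 8 : ℚ) * h3
  · right; right; left
    have hv : v = -2 * w - 3 := by linear_combination (1 / 2 : ℚ) * B1
    rw [hv] at B2
    have h2 : (w - 1) * (w - 11) = 0 := by linear_combination -B2
    rcases mul_eq_zero.mp h2 with h3 | h3
    · linear_combination h3
    · exact absurd h3 hs0
  · right; right; right
    have hv : v = -(9 * w + 1) / 12 := by linear_combination (9 / 8 : ℚ) * B1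
    rw [hv] at B2
    have h2 : (w + 29) * (w - 11) = 0 := by linear_combination 144 * B2
    rcases mul_eq_zero.mp h2 with h3 | h3
    · linear_combination h3
    · exact absurd h3 hs0

end Fermat.Agent.S51
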