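import Fermat.Agent.S51.Counting

set_option autoImplicit false

namespace Fermat.Agent.S51

open WeierstrassCurve WeierstrassCurve.Affine Polynomial

section General

variable {F : Type*} [Field F] (W : WeierstrassCurve.Affine F)

/-- `ψ₃` as a polynomial. -/
noncomputable def psi3Poly : F[X] :=
  C 3 * X ^ 4 + C W.b₂ * X ^ 3 + C (3 * W.b₄) * X ^ 2 + C (3 * W.b₆) * X + C W.b₈

noncomputable def psi2sqPoly : F[X] :=
  C 4 * X ^ 3 + C W.b₂ * X ^ 2 + C (2 * W.b₄) * X + C W.b₆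

noncomputable def phi2Poly : F[X] :=
  X ^ 4 - C W.b₄ * X ^ 2 - C (2 * W.b₆) * X - C W.b₈

/-- A polynomial of degree `16` vanishing at the `x`-coordinates of points of order `5`. -/
noncomputable def g5Poly : F[X] :=
  (phi2Poly W) ^ 4 - C W.b₄ * (phi2Poly W) ^ 2 * (psi2sqPoly W) ^ 2
    - C (2 * W.b₆) * (phi2Poly W) * (psi2sqPoly W) ^ 3 - C W.b₈ * (psi2sqPoly W) ^ 4
    - X * (psi2sqPoly W) * (C 4 * (phi2Poly W) ^ 3 + C W.b₂ * (phi2Poly W) ^ 2 * (psi2sqPoly W)
      + C (2 * W.b₄) * (phi2Poly W) * (psi2sqPoly W) ^ 2 + C W.b₆ * (psi2sqPoly W) ^ 3)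

lemma eval_psi3Poly (x : F) : (psi3Poly W).eval x = psi3 W x := by
  simp only [psi3Poly, psi3, eval_add, eval_mul, eval_C, eval_pow, eval_X]

lemma eval_psi2sqPoly (x : F) : (psi2sqPoly W).eval x = psi2sq W x := by
  simp only [psi2sqPoly, psi2sq, eval_add, eval_mul, eval_C, eval_pow, eval_X]

lemma eval_phi2Poly (x : F) : (phi2Poly W).eval x = phi2 W x := by
  simp only [phi2Poly, phi2, eval_sub, eval_mul, eval_C, eval_pow, eval_X]

lemma natDegree_psi3Poly_le : (psi3Poly W).natDegree ≤ 4 := by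
  unfold psi3Poly; compute_degree

lemma coeff_psi3Poly : (psi3Poly W).coeff 4 = 3 := by
  unfold psi3Poly; compute_degree!

lemma natDegree_g5Poly_le : (g5Poly W).natDegree ≤ 16 := by
  unfold g5Poly phi2Poly psi2sqPoly; compute_degree

lemma coeff_g5Poly : (g5Poly W).coeff 16 = -15 := by
  unfold g5Poly phi2Poly psi2sqPoly; compute_degree!

end General

end Fermat.Agent.S51
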