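import Fermat.Agent.S51.XCoord

set_option autoImplicit false

namespace Fermat.Agent.S51

open WeierstrassCurve WeierstrassCurve.Affine

section General

variable {F : Type*} [Field F] [DecidableEq F] {W : WeierstrassCurve.Affine F}

lemma psi3_eq (x : F) : psi3 W x = x * psi2sq W x - phi2 W x := by
  simp only [psi3, psi2sq, phi2]; ring

lemma Δ_eq_zero_of_psi (x : F) (h1 : psi2sq W x = 0) (h2 : psi3 W x = 0) : W.Δ = 0 := by
  have hrel := W.b_relation
  simp only [psi2sq, psi3] at h1 h2
  simp only [WeierstrassCurve.Δ]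
  generalize W.b₂ = b2 at *
  generalize W.b₄ = b4 at *
  generalize W.b₆ = b6 at *
  generalize W.b₈ = b8 at *
  grind

/-- A nonzero `3`-torsion point has `ψ₃(x) = 0`. -/
lemma psi3_of_three_nsmul {P : W.Point} (hP : P ≠ 0) (h3 : 3 • P = 0) :
    psi3 W (xOf W P) = 0 := by
  have h2 : P + P = -P := by
    rw [eq_neg_iff_add_eq_zero]
    rw [← h3]; abel
  have h2' : P + P ≠ 0 := by rw [h2]; simpa using hP
  have := xOf_add_self hP h2'
  rw [h2, xOf_neg] at this
  rw [psi3_eq, this, sub_self]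

/-- A point with `ψ₃(x) = 0` on an elliptic curve is `3`-torsion. -/
lemma three_nsmul_of_psi3 (hΔ : W.Δ ≠ 0) {P : W.Point} (hP : P ≠ 0)
    (h : psi3 W (xOf W P) = 0) : 3 • P = 0 := by
  have hpsi2 : psi2sq W (xOf W P) ≠ 0 := fun h1 => hΔ (Δ_eq_zero_of_psi _ h1 h)
  have h2' : P + P ≠ 0 := fun h2 => hpsi2 ((add_self_eq_zero_iff hP).mp h2)
  have h3 := xOf_add_self hP h2'
  rw [psi3_eq, sub_eq_zero] at h
  rw [← h] at h3
  have hx : xOf W (P + P) = xOf W P := mul_right_cancel₀ hpsi2 h3
  rcases (xOf_eq_iff h2' hP).mp hx with h4 | h4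
  · exact absurd (by simpa using h4) hP
  · have : 3 • P = (P + P) + P := by abel
    rw [this, h4]; simp

/-- The relations satisfied by the `x`-coordinates of a point of order `5`. -/
lemma five_torsion_relations {P : W.Point} (hP : P ≠ 0) (h5 : 5 • P = 0) :
    xOf W P ≠ xOf W (2 • P) ∧ 2 • P ≠ 0 ∧
    xOf W (2 • P) * psi2sq W (xOf W P) = phi2 W (xOf W P) ∧
    xOf W P * psi2sq W (xOf W (2 • P)) = phi2 W (xOf W (2 • P)) := by
  have h2 : 2 • P ≠ 0 := by
    intro h2
    apply hP
    have : P = 5 • P - 2 • (2 • P) := by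
      rw [smul_smul]; simp only [Nat.reduceMul]
      rw [eq_sub_iff_add_eq, ← succ_nsmul']
    rw [this, h5, h2]; simp
  have h4 : 2 • P + 2 • P = -P := by
    rw [eq_neg_iff_add_eq_zero, ← h5]
    abel
  have h4' : 2 • P + 2 • P ≠ 0 := by rw [h4]; simpa using hP
  refine ⟨?_, h2, ?_, ?_⟩
  · intro hx
    rcases (xOf_eq_iff hP h2).mp hx with h | h
    · apply hP
      have : P = 2 • P - P := by rw [two_nsmul]; abel
      rw [this, ← h]; simp
    · -- `3 • P = 0`
      have h3 : 3 • P = 0 := by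
        have : 3 • P = P + 2 • P := by abel
        rw [this]; nth_rewrite 1 [h]; simp
      apply hP
      have : P = 2 • (3 • P) - 5 • P := by
        rw [smul_smul]; simp only [Nat.reduceMul]
        rw [eq_sub_iff_add_eq, ← succ_nsmul']
      rw [this, h3, h5]; simp
  · have := xOf_add_self hP (by rwa [← two_nsmul])
    rwa [← two_nsmul] at this
  · have := xOf_add_self h2 h4'
    rwa [h4, xOf_neg] at this

/-- Conversely, such `x`-coordinates produce a point of order `5`. -/
lemma five_nsmul_of_relations {P : W.Point} (hP : P ≠ 0) (x2 : F) (hne : xOf W P ≠ x2)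
    (h1 : psi2sq W (xOf W P) ≠ 0) (h2 : psi2sq W x2 ≠ 0)
    (R1 : x2 * psi2sq W (xOf W P) = phi2 W (xOf W P))
    (R2 : xOf W P * psi2sq W x2 = phi2 W x2) : 5 • P = 0 := by
  have hPP : P + P ≠ 0 := fun h => h1 ((add_self_eq_zero_iff hP).mp h)
  have hx2 : xOf W (P + P) = x2 := by
    have := xOf_add_self hP hPP
    rw [← R1] at this
    exact mul_right_cancel₀ h1 this
  have h4 : (P + P) + (P + P) ≠ 0 := fun h => h2 (by
    have := (add_self_eq_zero_iff hPP).mp h
    rwa [hx2] at this)
  have hx4 : xOf W ((P + P) + (P + P)) = xOf W P := by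
    have := xOf_add_self hPP h4
    rw [hx2, ← R2] at this
    exact mul_right_cancel₀ h2 this
  rcases (xOf_eq_iff h4 hP).mp hx4 with h | h
  · exfalso
    -- `3 • P = 0`, so `2 • P = -P`
    have h3 : P + P = -P := by
      rw [eq_neg_iff_add_eq_zero]
      have : P + P + P = (P + P + (P + P)) - P := by abel
      rw [this, h]; simp
    apply hne
    rw [← hx2, h3, xOf_neg]
  · have : 5 • P = (P + P + (P + P)) + P := by abel
    rw [this, h]; simp

end General

end Fermat.Agent.S51
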