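import Mathlib

set_option autoImplicit false

namespace Fermat.Agent.S51

open WeierstrassCurve WeierstrassCurve.Affine

section General

variable {F : Type*} [Field F] (W : WeierstrassCurve.Affine F)

/-- The `x`-coordinate of a point, with junk value `0` at the origin. -/
def xOf : W.Point → F
  | .zero => 0
  | .some x _ _ => x

/-- `ψ₂²` as a function of `x`. -/
def psi2sq (x : F) : F := 4 * x ^ 3 + W.b₂ * x ^ 2 + 2 * W.b₄ * x + W.b₆

/-- `φ₂` as a function of `x`. -/
def phi2 (x : F) : F := x ^ 4 - W.b₄ * x ^ 2 - 2 * W.b₆ * x - W.b₈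

/-- `ψ₃` as a function of `x`. -/
def psi3 (x : F) : F := 3 * x ^ 4 + W.b₂ * x ^ 3 + 3 * W.b₄ * x ^ 2 + 3 * W.b₆ * x + W.b₈

variable {W}

@[simp] lemma xOf_some {x y : F} (h : W.Nonsingular x y) : xOf W (.some x y h) = x := rfl

lemma xOf_neg (P : W.Point) : xOf W (-P) = xOf W P := by
  cases P <;> rfl

lemma xOf_eq_iff {P Q : W.Point} (hP : P ≠ 0) (hQ : Q ≠ 0) :
    xOf W P = xOf W Q ↔ P = Q ∨ P = -Q := by
  match P, Q with
  | .zero, _ => exact absurd rfl hP
  | _, .zero => exact absurd rfl hQ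
  | .some x₁ y₁ h₁, .some x₂ y₂ h₂ => exact Point.X_eq_iff

lemma psi2sq_eq {x y : F} (h : W.Equation x y) :
    psi2sq W x = (2 * y + W.a₁ * x + W.a₃) ^ 2 := by
  rw [Affine.equation_iff] at h
  simp only [psi2sq, WeierstrassCurve.b₂, WeierstrassCurve.b₄, WeierstrassCurve.b₆]
  linear_combination (-4 : F) * h

variable [DecidableEq F]

lemma add_self_eq_zero_iff {P : W.Point} (hP : P ≠ 0) :
    P + P = 0 ↔ psi2sq W (xOf W P) = 0 := by
  match P with
  | .zero => exact absurd rfl hP
  | .some x y h =>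
    rw [xOf_some, psi2sq_eq h.1]
    constructor
    · intro h2
      by_cases hy : y = W.negY x y
      · rw [Affine.negY] at hy
        have : 2 * y + W.a₁ * x + W.a₃ = 0 := by linear_combination hy
        rw [this]; ring
      · rw [Point.add_self_of_Y_ne hy] at h2
        exact absurd h2 (Point.some_ne_zero _)
    · intro h2
      apply Point.add_self_of_Y_eq
      rw [Affine.negY]
      have := pow_eq_zero_iff (two_ne_zero) |>.mp h2
      linear_combination this

lemma xOf_add_self {P : W.Point} (hP : P ≠ 0) (h2 : P + P ≠ 0) :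
    xOf W (P + P) * psi2sq W (xOf W P) = phi2 W (xOf W P) := by
  match P with
  | .zero => exact absurd rfl hP
  | .some x y h =>
    have hy : y ≠ W.negY x y := fun hy => h2 (Point.add_self_of_Y_eq hy)
    rw [Point.add_self_of_Y_ne hy, xOf_some, xOf_some, psi2sq_eq h.1,
      Affine.slope_of_Y_ne rfl hy]
    have hne : y - W.negY x y ≠ 0 := sub_ne_zero.mpr hy
    have heq := (Affine.equation_iff _ _).mp h.1
    have h2y : 2 * y + W.a₁ * x + W.a₃ = y - W.negY x y := by rw [Affine.negY]; ring
    rw [h2y]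
    simp only [Affine.addX, phi2, WeierstrassCurve.b₄, WeierstrassCurve.b₆, WeierstrassCurve.b₈]
    field_simp
    rw [Affine.negY]
    linear_combination (-(W.a₁ ^ 2 + 4 * W.a₂ + 8 * x)) * heq

end General

end Fermat.Agent.S51
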